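import Fermat.Agent.PrimePowerInequality.Minor
import Fermat.Agent.WaringGoldbach.Major

/-!
# Near the origin

For `|α| ≤ (log P) ^ D / P ^ k` the sum `S (c α)` is `O (P (1 + P ^ k |α|) ^ (-1/k))` up to any
power of `1 / log P`, by the prime number theorem with an error term; so `∏ S (lᵢ α)` is integrable
there to `O (P ^ (s - k))` for `s > 2 k`.
-/

set_option autoImplicit false

noncomputable section

namespace FA.PrimePowerInequality

open Finset Filter Topology MeasureTheory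
open FA.ThreePrimes (eAdd logOne one_le_logOne nearDist)
open FA.LinearFormsPrimes (tendsto_logOne eventually_logOne_le_two_log eventually_logOne_pow_le)
open FA.WaringAsymptotic (weightSum)
open scoped Real ArithmeticFunction.vonMangoldt

variable {k s : ℕ}

theorem tendsto_majorWidth (hk : 1 ≤ k) (D : ℕ) :
    Tendsto (majorWidth k D) atTop (𝓝 0) := by
  refine Metric.tendsto_nhds.2 fun ε hε => ?_
  filter_upwards [eventually_logOne_pow_le D (show (0 : ℝ) < 1 / 2 by norm_num) hε,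
    eventually_ge_atTop 2] with P hP hP2
  rw [Real.dist_eq, sub_zero, abs_of_nonneg (majorWidth_nonneg k D P)]
  have hP0 : (0 : ℝ) < P := by exact_mod_cast (show 0 < P by omega)
  have hlt : (P : ℝ) ^ (1 / 2 : ℝ) < (P : ℝ) ^ k := by
    rw [← Real.rpow_natCast]
    refine Real.rpow_lt_rpow_of_exponent_lt (by exact_mod_cast hP2) ?_
    have : (1 : ℝ) ≤ k := by exact_mod_cast hk
    linarith
  rw [majorWidth, div_lt_iff₀ (pow_pos hP0 k)]
  exact lt_of_le_of_lt hP (mul_lt_mul_of_pos_left hlt hε)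

/-- **The prime number theorem for `S` near zero.** -/
theorem exists_powSum_approx (hk : 1 ≤ k) (D F : ℕ) : ∃ C : ℝ, 0 < C ∧ ∀ᶠ P : ℕ in atTop,
    ∀ θ : ℝ, |θ| * (P : ℝ) ^ k ≤ logOne P ^ D →
      ‖powSum k P θ - weightSum (1 / (k : ℝ)) (P ^ k) θ‖ ≤ C * (P / logOne P ^ F) := by
  obtain ⟨C, hC, h⟩ := WaringGoldbach.exists_pow_major hk 1 (D + F)
  refine ⟨9 * (2 ^ (D + F) * C + 2) + 2, by positivity, ?_⟩
  filter_upwards [eventually_logOne_le_two_log, tendsto_logOne.eventually (eventually_ge_atTop 3),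
    eventually_logOne_pow_le (D + F + 1) (show (0 : ℝ) < 1 / 2 by norm_num) one_pos,
    eventually_ge_atTop 2] with P hlog hL3 hroot hP θ hθ
  obtain ⟨L, hL⟩ : ∃ L, L = logOne P := ⟨_, rfl⟩
  obtain ⟨l, hl⟩ : ∃ l, l = Real.log P := ⟨_, rfl⟩
  rw [← hL] at hlog hL3 hroot hθ ⊢
  rw [← hl] at hlog
  rw [one_mul, ← Real.sqrt_eq_rpow] at hroot
  have hlL : L = 1 + l := by rw [hl, hL, ThreePrimes.logOne]
  have hL0 : 0 < L := by linarith
  have hP0 : (0 : ℝ) < P := Nat.cast_pos.2 (by omega)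
  have hq : ((1 : ℕ) : ℝ) ≤ Real.log P ^ 1 := by rw [← hl, Nat.cast_one, pow_one]; linarith
  have h1 := h (P ^ k) P 1 0 θ hP le_rfl (Nat.pow_lt_pow_left P.lt_succ_self (by omega)) hq
  have hone : WaringGoldbach.unitFactor k 1 0 = 1 := by
    simp [WaringGoldbach.unitFactor, WaringGoldbach.unitSum, ThreePrimes.unitResidues]
  rw [Int.cast_zero, zero_div, zero_add, hone, one_mul, ← hl] at h1
  have h2 := norm_powSum_sub_le k (P := P) (by omega) θ
  rw [← hl] at h2
  have h3 : 1 + 2 * π * |θ| * ((P ^ k : ℕ) : ℝ) ≤ 9 * L ^ D := by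
    push_cast
    have h4 := mul_le_mul_of_nonneg_left hθ (show 0 ≤ 2 * π by positivity)
    have h5 : (1 : ℝ) ≤ L ^ D := one_le_pow₀ (by linarith)
    have h6 := mul_le_mul_of_nonneg_right Real.pi_le_four (show (0 : ℝ) ≤ L ^ D by positivity)
    linarith
  have hsmall : L ^ (D + F + 1) ≤ √(P : ℝ) := hroot
  have hsq : √(P : ℝ) * √(P : ℝ) = P := Real.mul_self_sqrt hP0.le
  have h4 : (C * (P / l ^ (D + F)) + 2) * (1 + 2 * π * |θ| * ((P ^ k : ℕ) : ℝ)) ≤
      9 * (2 ^ (D + F) * C + 2) * (P / L ^ F) := by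
    refine (mul_le_mul_of_nonneg_left h3 (add_nonneg (mul_nonneg hC.le (div_nonneg hP0.le
      (pow_nonneg (by linarith) _))) two_pos.le)).trans ?_
    have h5 : C * (P / l ^ (D + F)) ≤ 2 ^ (D + F) * C * (P / L ^ (D + F)) := by
      rw [show 2 ^ (D + F) * C * ((P : ℝ) / L ^ (D + F)) = C * (P / (L / 2) ^ (D + F)) by
        rw [div_pow]; field_simp]
      exact mul_le_mul_of_nonneg_left (div_le_div_of_nonneg_left hP0.le (by positivity)
        (pow_le_pow_left₀ (by linarith) (by linarith) _)) hC.le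
    have h6 : (1 : ℝ) ≤ P / L ^ (D + F) := by
      rw [le_div_iff₀ (by positivity), one_mul]
      refine (pow_le_pow_right₀ (by linarith) (Nat.le_succ _)).trans (hsmall.trans ?_)
      rw [Real.sqrt_le_left hP0.le, sq]
      exact le_mul_of_one_le_right hP0.le (by exact_mod_cast (by omega : 1 ≤ P))
    calc (C * (P / l ^ (D + F)) + 2) * (9 * L ^ D)
        ≤ (2 ^ (D + F) * C + 2) * (P / L ^ (D + F)) * (9 * L ^ D) := by
          refine mul_le_mul_of_nonneg_right ?_ (by positivity)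
          linarith
      _ = _ := by rw [pow_add L D F]; field_simp
  have h5 : 2 * √(P : ℝ) * l ≤ 2 * (P / L ^ F) := by
    rw [mul_assoc, mul_div_assoc', le_div_iff₀ (by positivity)]
    calc 2 * (√(P : ℝ) * l) * L ^ F ≤ 2 * (√(P : ℝ) * L) * L ^ F := by
          gcongr
          linarith
      _ = 2 * √(P : ℝ) * L ^ (F + 1) := by ring
      _ ≤ 2 * √(P : ℝ) * √(P : ℝ) := mul_le_mul_of_nonneg_left
          ((pow_le_pow_right₀ (by linarith) (by omega)).trans hsmall) (by positivity)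
      _ = _ := by rw [mul_assoc, hsq]
  have h6 := norm_sub_le_norm_sub_add_norm_sub (powSum k P θ) (WaringGoldbach.powTwist k θ Λ P)
    (weightSum (1 / (k : ℝ)) (P ^ k) θ)
  linarith

/-- `(1 + y) ^ (-1/k)`. -/
def decay (k : ℕ) (y : ℝ) : ℝ := (1 + y) ^ (-(1 / (k : ℝ)))

theorem decay_nonneg (k : ℕ) {y : ℝ} (hy : 0 ≤ y) : 0 ≤ decay k y :=
  Real.rpow_nonneg (by linarith) _

theorem decay_pow_le (hk : 1 ≤ k) (hs : 2 * k + 1 ≤ s) {y : ℝ} (hy : 0 ≤ y) :
    decay k y ^ s ≤ decay k y * (1 + y ^ 2)⁻¹ := by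
  have hk0 : (0 : ℝ) < k := Nat.cast_pos.2 hk
  rw [decay, ← Real.rpow_natCast, ← Real.rpow_mul (by linarith)]
  have hexp : -(1 / (k : ℝ)) * s ≤ -(1 / (k : ℝ)) + -(2 : ℝ) := by
    have h1 : (2 * (k : ℝ) + 1) * (1 / (k : ℝ)) ≤ s * (1 / (k : ℝ)) :=
      mul_le_mul_of_nonneg_right (by exact_mod_cast hs) (by positivity)
    rw [add_mul, mul_assoc, mul_one_div_cancel hk0.ne'] at h1
    linarith
  refine (Real.rpow_le_rpow_of_exponent_le (by linarith) hexp).trans ?_
  rw [Real.rpow_add (by linarith)]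
  refine mul_le_mul_of_nonneg_left ?_ (Real.rpow_nonneg (by linarith) _)
  rw [Real.rpow_neg (by linarith), Real.rpow_two]
  exact inv_anti₀ (by positivity) (by linarith)

theorem exists_powSum_bound (hk : 1 ≤ k) {c : ℝ} (hc : c ≠ 0) (D : ℕ) :
    ∃ E : ℝ, 0 < E ∧ ∀ᶠ P : ℕ in atTop, ∀ α : ℝ, |α| ≤ majorWidth k D P →
      ‖powSum k P (c * α)‖ ≤
        E * (P * (decay k ((P : ℝ) ^ k * |α|) + 1 / logOne P ^ (D + 1))) := by
  obtain ⟨C, hC, happ⟩ := exists_powSum_approx hk (D + 1) (D + 1)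
  have hc0 : 0 < |c| := abs_pos.2 hc
  have hk1r : (1 : ℝ) ≤ k := by exact_mod_cast hk
  obtain ⟨K, hK⟩ : ∃ K : ℝ, K = 3 * (|c| / 2) ^ (-(1 / (k : ℝ))) := ⟨_, rfl⟩
  have hK0 : 0 < K := hK ▸ by positivity
  refine ⟨4 + K + C, by positivity, ?_⟩
  filter_upwards [happ, tendsto_logOne.eventually (eventually_ge_atTop |c|),
    (tendsto_majorWidth hk D).eventually
      (eventually_le_nhds (show 0 < 1 / (2 * |c|) by positivity)),
    eventually_ge_atTop 1] with P hP hLbig hw hP1 α hα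
  have hP0 : (0 : ℝ) < P := Nat.cast_pos.2 hP1
  obtain ⟨N, hN⟩ : ∃ N : ℝ, N = (P : ℝ) ^ k := ⟨_, rfl⟩
  have hN0 : 0 < N := hN ▸ pow_pos hP0 k
  obtain ⟨L, hL⟩ : ∃ L, L = logOne P := ⟨_, rfl⟩
  have hL1 : 1 ≤ L := hL ▸ one_le_logOne P
  rw [← hL] at hP hLbig ⊢
  rw [← hN]
  obtain ⟨y, hy⟩ : ∃ y, y = N * |α| := ⟨_, rfl⟩
  rw [← hy]
  have hy0 : 0 ≤ y := hy ▸ by positivity
  have hd0 := decay_nonneg k hy0
  have hrest : 0 ≤ (4 + K + C) * ((P : ℝ) * (1 / L ^ (D + 1))) := by positivity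
  rw [mul_add, mul_add]
  rcases le_or_gt y 1 with hy1 | hy1
  · refine ((norm_powSum_le k P _).trans ?_).trans (le_add_of_nonneg_right hrest)
    have h1 : 1 / 2 ≤ decay k y := by
      rw [decay, Real.rpow_neg (by linarith), one_div (2 : ℝ)]
      refine inv_anti₀ (by positivity) ?_
      refine (Real.rpow_le_rpow (by linarith) (show 1 + y ≤ 2 by linarith) (by positivity)).trans ?_
      exact Real.rpow_le_self_of_one_le one_le_two ((div_le_one (by linarith)).2 hk1r)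
    calc 2 * (P : ℝ) = 4 * (P * (1 / 2)) := by ring
      _ ≤ _ := mul_le_mul (by linarith) (mul_le_mul_of_nonneg_left h1 hP0.le) (by positivity)
        (by positivity)
  have hθ : |c * α| * (P : ℝ) ^ k ≤ L ^ (D + 1) := by
    rw [← hN, abs_mul, mul_assoc, pow_succ']
    refine mul_le_mul hLbig ?_ (by positivity) (by linarith)
    rw [majorWidth, ← hL, ← hN, le_div_iff₀ hN0] at hα
    exact hα
  have h1 := hP (c * α) hθ
  have hnear : |c * α| ≤ 1 / 2 := by
    rw [abs_mul]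
    calc |c| * |α| ≤ |c| * (1 / (2 * |c|)) := mul_le_mul_of_nonneg_left (hα.trans hw) hc0.le
      _ = _ := by field_simp
  have hα0 : 0 < |α| := by
    rcases eq_or_lt_of_le (abs_nonneg α) with h | h
    · rw [← h, mul_zero] at hy; linarith
    · exact h
  have hweight : ‖weightSum (1 / (k : ℝ)) (P ^ k) (c * α)‖ ≤ K * (P * decay k y) := by
    have hnd := ThreePrimes.nearDist_eq_abs hnear
    refine (WaringAsymptotic.norm_weightSum_le_inv (by positivity)
      ((div_le_one (by linarith)).2 hk1r) (P ^ k)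
      (hnd.symm ▸ abs_pos.2 (mul_ne_zero hc (abs_pos.1 hα0)))).trans ?_
    rw [hnd]
    have hPr : (N⁻¹) ^ (-(1 / (k : ℝ))) = P := by
      rw [Real.inv_rpow hN0.le, ← Real.rpow_neg hN0.le, neg_neg, hN, ← Real.rpow_natCast,
        ← Real.rpow_mul hP0.le, mul_one_div_cancel (by linarith), Real.rpow_one]
    have h2 : |c| / 2 * (1 + y) * N⁻¹ ≤ |c * α| := by
      rw [abs_mul, ← div_eq_mul_inv, div_le_iff₀ hN0, mul_assoc, mul_comm |α| N, ← hy]
      have := mul_le_mul_of_nonneg_left (show 1 + y ≤ 2 * y by linarith) hc0.le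
      linarith
    refine (mul_le_mul_of_nonneg_left (Real.rpow_le_rpow_of_nonpos (by positivity) h2
      (neg_nonpos.2 (by positivity))) (by norm_num)).trans (le_of_eq ?_)
    rw [Real.mul_rpow (by positivity) (by positivity), Real.mul_rpow (by positivity) (by linarith),
      hPr, hK, decay]
    ring
  have h2 := norm_le_norm_add_norm_sub' (powSum k P (c * α))
    (weightSum (1 / (k : ℝ)) (P ^ k) (c * α))
  have h3 : K * ((P : ℝ) * decay k y) ≤ (4 + K + C) * (P * decay k y) :=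
    mul_le_mul_of_nonneg_right (by linarith) (by positivity)
  have h4 : C * ((P : ℝ) / L ^ (D + 1)) ≤ (4 + K + C) * (P * (1 / L ^ (D + 1))) := by
    rw [mul_one_div]
    exact mul_le_mul_of_nonneg_right (by linarith) (by positivity)
  linarith

/-- **The product near zero.** -/
theorem exists_product_bound (hk : 1 ≤ k) (hs : 2 * k + 1 ≤ s) {l : Fin s → ℝ}
    (hl : ∀ i, l i ≠ 0) (D : ℕ) : ∃ E : ℝ, 0 < E ∧ ∀ᶠ P : ℕ in atTop,
      ∀ α ∈ Set.Icc (-majorWidth k D P) (majorWidth k D P), ‖powProd k P l α‖ ≤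
        E * (P : ℝ) ^ s * (decay k ((P : ℝ) ^ k * |α|) *
          (1 + ((P : ℝ) ^ k * α) ^ 2)⁻¹ + 1 / logOne P ^ (D + 1)) := by
  choose E hE h using fun i => exists_powSum_bound hk (hl i) D
  refine ⟨(∏ i, E i) * 2 ^ s, mul_pos (prod_pos fun i _ => hE i) (by positivity), ?_⟩
  filter_upwards [eventually_all.2 h] with P hP α hα
  obtain ⟨u, hu⟩ : ∃ u, u = decay k ((P : ℝ) ^ k * |α|) := ⟨_, rfl⟩
  obtain ⟨v, hv⟩ : ∃ v, v = 1 / logOne P ^ (D + 1) := ⟨_, rfl⟩
  have hL : 1 ≤ logOne P := one_le_logOne P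
  have hu0 : 0 ≤ u := hu ▸ decay_nonneg k (by positivity)
  have hv0 : 0 ≤ v := hv ▸ div_nonneg zero_le_one (pow_nonneg (by linarith) _)
  have hv1 : v ≤ 1 := hv ▸ (div_le_one (pow_pos (by linarith) _)).2 (one_le_pow₀ hL)
  have hprodE : 0 ≤ ∏ i, E i := prod_nonneg fun i _ => (hE i).le
  have hus := decay_pow_le (k := k) (s := s) hk hs
    (show 0 ≤ (P : ℝ) ^ k * |α| by positivity)
  rw [show ((P : ℝ) ^ k * |α|) ^ 2 = ((P : ℝ) ^ k * α) ^ 2 by rw [mul_pow, mul_pow, sq_abs],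
    ← hu] at hus
  rw [← hu, ← hv, powProd, norm_prod]
  refine (prod_le_prod (fun i _ => norm_nonneg _)
    fun i _ => hP i α (abs_le.2 hα)).trans ?_
  rw [prod_mul_distrib, prod_const, card_univ, Fintype.card_fin, ← hu, ← hv, mul_pow]
  have h2 : (u + v) ^ s ≤ 2 ^ s * (u ^ s + v ^ s) := by
    refine (pow_le_pow_left₀ (add_nonneg hu0 hv0) (show u + v ≤ 2 * max u v by
      linarith [le_max_left u v, le_max_right u v]) s).trans ?_
    rw [mul_pow]
    refine mul_le_mul_of_nonneg_left ?_ (by positivity)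
    rcases max_choice u v with e | e <;> rw [e]
    · exact le_add_of_nonneg_right (pow_nonneg hv0 s)
    · exact le_add_of_nonneg_left (pow_nonneg hu0 s)
  have h3 : v ^ s ≤ v := pow_le_of_le_one hv0 hv1 (by omega)
  have h4 := mul_le_mul_of_nonneg_left (h2.trans (mul_le_mul_of_nonneg_left (add_le_add hus h3)
    (by positivity))) (show 0 ≤ (∏ i, E i) * (P : ℝ) ^ s by positivity)
  linarith

/-- An integrand below `P ^ s (u (1 + (P ^ k α)²)⁻¹ + v)` on the major interval. -/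
theorem integral_major_le (hks : k ≤ s) {D P : ℕ} (hP : 1 ≤ P) {F : ℝ → ℝ} (hF : Continuous F)
    {u v : ℝ} (hu : 0 ≤ u) (h : ∀ α ∈ Set.Icc (-majorWidth k D P) (majorWidth k D P),
      F α ≤ (P : ℝ) ^ s * (u * (1 + ((P : ℝ) ^ k * α) ^ 2)⁻¹ + v)) :
    ∫ α in Set.Icc (-majorWidth k D P) (majorWidth k D P), F α ≤
      (P : ℝ) ^ (s - k) * (u * π + 2 * logOne P ^ D * v) := by
  obtain ⟨N, hN⟩ : ∃ N : ℝ, N = (P : ℝ) ^ k := ⟨_, rfl⟩
  have hN0 : 0 < N := hN ▸ pow_pos (Nat.cast_pos.2 hP) k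
  have hNs : (P : ℝ) ^ (s - k) * N = (P : ℝ) ^ s := by
    rw [hN, ← pow_add, Nat.sub_add_cancel hks]
  rw [← hN] at h
  obtain ⟨δ, hδ⟩ : ∃ δ, δ = majorWidth k D P := ⟨_, rfl⟩
  rw [← hδ] at h ⊢
  have hδ0 : 0 ≤ δ := hδ ▸ majorWidth_nonneg k D P
  have hint : Integrable fun α : ℝ => (P : ℝ) ^ s * u * (1 + (N * α) ^ 2)⁻¹ :=
    (integrable_inv_one_add_sq.comp_mul_left' hN0.ne').const_mul _
  have hconst : IntegrableOn (fun _ : ℝ => (P : ℝ) ^ s * v) (Set.Icc (-δ) δ) :=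
    integrableOn_const measure_Icc_lt_top.ne
  refine (setIntegral_mono_on (g := fun α =>
    (P : ℝ) ^ s * u * (1 + (N * α) ^ 2)⁻¹ + (P : ℝ) ^ s * v) hF.integrableOn_Icc
    (hint.integrableOn.add hconst) measurableSet_Icc fun α hα => ?_).trans ?_
  · have := h α hα
    linarith
  rw [integral_add hint.integrableOn hconst, setIntegral_const, Measure.real, Real.volume_Icc,
    ENNReal.toReal_ofReal (by linarith), smul_eq_mul]
  have h1 := setIntegral_le_integral (s := Set.Icc (-δ) δ) hint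
    (ae_of_all _ fun α => by positivity)
  have h2 : ∫ α : ℝ, (P : ℝ) ^ s * u * (1 + (N * α) ^ 2)⁻¹ = (P : ℝ) ^ (s - k) * (u * π) := by
    rw [integral_const_mul, Measure.integral_comp_mul_left (fun x : ℝ => (1 + x ^ 2)⁻¹) N,
      integral_univ_inv_one_add_sq, smul_eq_mul, abs_of_pos (inv_pos.2 hN0), ← hNs]
    field_simp
  have h3 : (δ - -δ) * ((P : ℝ) ^ s * v) = (P : ℝ) ^ (s - k) * (2 * logOne P ^ D * v) := by
    rw [hδ, majorWidth, ← hN, ← hNs]
    field_simp
    ring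
  linarith

theorem logOne_pow_mul_inv (D P : ℕ) :
    logOne P ^ D * (1 / logOne P ^ (D + 1)) = 1 / logOne P := by
  have hL : 0 < logOne P := zero_lt_one.trans_le (one_le_logOne P)
  rw [pow_succ]
  field_simp

/-- **The absolute major integral.** -/
theorem exists_major_abs (hk : 1 ≤ k) (hs : 2 * k + 1 ≤ s) {l : Fin s → ℝ} (hl : ∀ i, l i ≠ 0)
    (D : ℕ) : ∃ C : ℝ, 0 < C ∧ ∀ᶠ P : ℕ in atTop,
      ∫ α in Set.Icc (-majorWidth k D P) (majorWidth k D P), ‖powProd k P l α‖ ≤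
        C * (P : ℝ) ^ (s - k) := by
  obtain ⟨E, hE, h⟩ := exists_product_bound hk hs hl D
  refine ⟨E * (π + 2), by positivity, ?_⟩
  filter_upwards [h, eventually_ge_atTop 1] with P hP hP1
  refine (integral_major_le (s := s) (by omega) hP1 (continuous_powProd k P l).norm hE.le
    (v := E * (1 / logOne P ^ (D + 1))) fun α hα => (hP α hα).trans ?_).trans ?_
  · have h1 : decay k ((P : ℝ) ^ k * |α|) ≤ 1 :=
      Real.rpow_le_one_of_one_le_of_nonpos (le_add_of_nonneg_right (by positivity))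
        (neg_nonpos.2 (by positivity))
    have h2 := mul_le_mul_of_nonneg_left (mul_le_of_le_one_left
      (show (0 : ℝ) ≤ (1 + ((P : ℝ) ^ k * α) ^ 2)⁻¹ by positivity) h1)
      (show 0 ≤ E * (P : ℝ) ^ s by positivity)
    linarith
  · have h2 := logOne_pow_mul_inv D P
    have h3 : 1 / logOne P ≤ 1 := (div_le_one (zero_lt_one.trans_le (one_le_logOne P))).2
      (one_le_logOne P)
    rw [← h2] at h3
    have h4 := mul_le_mul_of_nonneg_left h3
      (show 0 ≤ 2 * E * (P : ℝ) ^ (s - k) by positivity)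
    linarith

end FA.PrimePowerInequality

end
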