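import Fermat.Agent.PrimePowerInequality.Sum
import Fermat.Agent.LinearFormsPrimes.Minor
import Fermat.Agent.WaringGoldbach.PrimeSum
import Fermat.Agent.WaringGoldbach.Moment

/-!
# Away from the origin

For `P` the denominator of an approximation of `a / b`, `S (a α)` and `S (b α)` are not both large
for `(log P) ^ D / P ^ k < |α| ≤ log P`, by Vinogradov's bound.
-/

set_option autoImplicit false

noncomputable section

namespace FA.PrimePowerInequality

open Finset Filter Topology MeasureTheory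
open FA.ThreePrimes (eAdd norm_eAdd logOne one_le_logOne)
open FA.DiophantineInequality (gaussK gaussK_pos integrable_kernel_mul_real prod_le_sum_pow)
open FA.LinearFormsPrimes (tendsto_logOne eventually_logOne_le_two_log eventually_logOne_pow_le)
open scoped Real ArithmeticFunction.vonMangoldt

variable {k s : ℕ}

/-- `P` is the denominator of an approximation of `r`. -/
def convergentDen (r : ℝ) (P : ℕ) : Prop :=
  ∃ A : ℤ, 0 < P ∧ IsCoprime A (P : ℤ) ∧ |r - A / P| ≤ 1 / (P : ℝ) ^ 2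

theorem frequently_convergentDen {r : ℝ} (hr : Irrational r) :
    ∃ᶠ P : ℕ in atTop, convergentDen r P := by
  refine frequently_atTop.2 fun N => ?_
  obtain ⟨q, A, hq, hA, hqA⟩ := PrimeFractionalParts.exists_large_den hr N
  refine ⟨q, hq.le, A, by omega, ?_, hqA⟩
  rw [ZMod.coe_int_isUnit_iff_isCoprime, isCoprime_comm] at hA
  exact hA

theorem norm_powSum_sub_le (k : ℕ) {P : ℕ} (hP : 1 ≤ P) (θ : ℝ) :
    ‖powSum k P θ - WaringGoldbach.powTwist k θ Λ P‖ ≤ 2 * √(P : ℝ) * Real.log P := by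
  refine le_trans ?_ ((le_abs_self _).trans (Chebyshev.abs_psi_sub_theta_le_sqrt_mul_log
    (x := P) (by exact_mod_cast hP)))
  rw [Chebyshev.psi_sub_theta_eq_sum_not_prime, Nat.floor_natCast, powSum,
    WaringGoldbach.powTwist]
  have hset : Equidist.primeSet P = (Ioc 0 P).filter Nat.Prime := by
    ext p
    simp only [Equidist.primeSet, mem_filter, mem_range, mem_Ioc]
    exact ⟨fun h => ⟨⟨h.2.pos, by omega⟩, h.2⟩, fun h => ⟨by omega, h.2⟩⟩
  rw [← sum_filter_add_sum_filter_not (Ioc 0 P) Nat.Prime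
    (fun n => (Λ n : ℂ) * eAdd (θ * (n : ℝ) ^ k)), ← hset,
    sum_congr rfl (f := fun n : ℕ => (Λ n : ℂ) * eAdd (θ * (n : ℝ) ^ k))
      (g := fun p : ℕ => (Real.log p : ℂ) * eAdd (θ * (p : ℝ) ^ k)) fun p hp => by
      rw [ArithmeticFunction.vonMangoldt_apply_prime (mem_filter.1 hp).2],
    sub_add_cancel_left, norm_neg]
  refine (norm_sum_le _ _).trans (le_of_eq (sum_congr rfl fun n _ => ?_))
  rw [norm_mul, norm_eAdd, mul_one, Complex.norm_real,
    Real.norm_of_nonneg ArithmeticFunction.vonMangoldt_nonneg]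

/-- **Large sums only near rationals with small denominators.** -/
theorem exists_rational_of_large (hk : 2 ≤ k) (m : ℕ) : ∃ B : ℕ, ∀ᶠ P : ℕ in atTop, ∀ θ : ℝ,
    (P : ℝ) / logOne P ^ m < ‖powSum k P θ‖ → ∃ (q : ℕ) (A : ℤ), 0 < q ∧
      (q : ℝ) ≤ logOne P ^ B ∧ |q * θ - A| ≤ logOne P ^ B / (P : ℝ) ^ k := by
  obtain ⟨B₀, C, hC, hminor⟩ := WaringGoldbach.exists_pow_exp_sum_le hk (m + 1)
  refine ⟨B₀ + 1, ?_⟩
  filter_upwards [eventually_logOne_le_two_log,
    tendsto_logOne.eventually (eventually_ge_atTop (max ((k : ℝ) ^ B₀) (4 * 2 ^ m * C))),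
    eventually_logOne_pow_le (B₀ + 1) one_pos one_pos,
    eventually_logOne_pow_le (m + 1) (show (0 : ℝ) < 1 / 2 by norm_num)
      (show (0 : ℝ) < 1 / 4 by norm_num),
    eventually_ge_atTop 2] with P hlog hLbig hLP hroot hP θ hθ
  obtain ⟨L, hL⟩ : ∃ L, L = logOne P := ⟨_, rfl⟩
  obtain ⟨l, hl⟩ : ∃ l, l = Real.log P := ⟨_, rfl⟩
  rw [← hL] at hlog hLbig hLP hroot hθ ⊢
  rw [← hl] at hlog
  rw [Real.rpow_one, one_mul] at hLP
  rw [← Real.sqrt_eq_rpow] at hroot
  rw [max_le_iff] at hLbig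
  have hL1 : 1 ≤ L := hL ▸ one_le_logOne P
  have hl0 : 0 < l := by linarith
  have hlL : l ≤ L := by rw [hl, hL, ThreePrimes.logOne]; linarith
  have hP0 : (0 : ℝ) < P := Nat.cast_pos.2 (by omega)
  obtain ⟨X, hX⟩ : ∃ X, X = L ^ (B₀ + 1) := ⟨_, rfl⟩
  rw [← hX] at hLP ⊢
  have hX0 : 0 < X := hX ▸ by positivity
  obtain ⟨N, hN⟩ : ∃ N, N = P ^ k := ⟨_, rfl⟩
  have hNr : (N : ℝ) = (P : ℝ) ^ k := by rw [hN, Nat.cast_pow]
  rw [← hNr]
  have hlN : Real.log N = k * l := by rw [hNr, Real.log_pow, hl]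
  have hkX : ((k : ℝ) * l) ^ B₀ ≤ X := by
    rw [hX, mul_pow, pow_succ']
    exact mul_le_mul hLbig.1 (pow_le_pow_left₀ hl0.le hlL B₀) (by positivity) (by positivity)
  have hXN : X ≤ N := by
    rw [hNr]
    exact hLP.trans (le_self_pow₀ (by exact_mod_cast (by omega : 1 ≤ P)) (by omega))
  obtain ⟨Q, hQ⟩ : ∃ Q, Q = ⌊(N : ℝ) / X⌋₊ := ⟨_, rfl⟩
  have hQ0 : 0 < Q := hQ ▸ Nat.floor_pos.2 ((one_le_div hX0).2 hXN)
  have hQle : (Q : ℝ) ≤ N / X := hQ ▸ Nat.floor_le (by positivity)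
  have hQlt : (N : ℝ) / X < Q + 1 := hQ ▸ Nat.lt_floor_add_one _
  obtain ⟨ρ, hρ, hρQ⟩ := Real.exists_rat_abs_sub_le_and_den_le θ hQ0
  obtain ⟨q, hq⟩ : ∃ q, q = ρ.den := ⟨_, rfl⟩
  have hq0 : (0 : ℝ) < q := hq ▸ Nat.cast_pos.2 ρ.den_pos
  rw [show (ρ : ℝ) = (ρ.num : ℝ) / q by rw [hq, Rat.cast_def], ← hq] at hρ
  refine ⟨q, ρ.num, hq ▸ ρ.den_pos, ?_, ?_⟩
  · by_contra hbig
    rw [not_le] at hbig
    have : NeZero q := ⟨(hq ▸ ρ.den_pos).ne'⟩
    have hunit : IsUnit (ρ.num : ZMod q) := by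
      rw [ZMod.coe_int_isUnit_iff_isCoprime, isCoprime_comm, Int.isCoprime_iff_nat_coprime, hq]
      simpa using ρ.reduced
    have hqQ : (q : ℝ) ≤ Q := Nat.cast_le.2 (hq ▸ hρQ)
    have happ : |θ - ρ.num / q| ≤ 1 / (q : ℝ) ^ 2 := by
      refine hρ.trans (one_div_le_one_div_of_le (by positivity) ?_)
      rw [sq]
      exact mul_le_mul_of_nonneg_right (by linarith) hq0.le
    have hk1r : (1 : ℝ) ≤ k := by exact_mod_cast (by omega : 1 ≤ k)
    have hroot' : (N : ℝ) ^ (1 / (k : ℝ)) = P := by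
      rw [hNr, ← Real.rpow_natCast, ← Real.rpow_mul hP0.le,
        mul_one_div_cancel (Nat.cast_ne_zero.2 (by omega)), Real.rpow_one]
    have hb := hminor N q ρ.num θ hunit happ (by rw [hlN]; linarith)
      ((hqQ.trans hQle).trans (by
        rw [hlN]
        exact div_le_div_of_nonneg_left (Nat.cast_nonneg N) (pow_pos (by positivity) _) hkX))
    rw [hN, WaringGoldbach.rootFloor_pow (by omega) (by omega), ← hN, hroot', hlN] at hb
    have h1 : C * (P / ((k : ℝ) * l) ^ (m + 1)) ≤ 1 / 2 * (P / L ^ m) := by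
      have h2 : (L / 2) ^ (m + 1) ≤ ((k : ℝ) * l) ^ (m + 1) := by
        refine pow_le_pow_left₀ (by linarith) ?_ _
        have := le_mul_of_one_le_left hl0.le hk1r
        linarith
      refine (mul_le_mul_of_nonneg_left (div_le_div_of_nonneg_left hP0.le (by positivity) h2)
        hC.le).trans ?_
      rw [show C * ((P : ℝ) / (L / 2) ^ (m + 1)) = 2 * 2 ^ m * C / L * (P / L ^ m) by
        rw [pow_succ, div_pow]; field_simp]
      refine mul_le_mul_of_nonneg_right ?_ (by positivity)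
      rw [div_le_iff₀ (by linarith)]
      linarith [hLbig.2]
    have h3 : 2 * √(P : ℝ) * l ≤ 1 / 2 * (P / L ^ m) := by
      rw [mul_div_assoc', le_div_iff₀ (by positivity)]
      calc 2 * √(P : ℝ) * l * L ^ m ≤ 2 * √(P : ℝ) * L * L ^ m := by gcongr
        _ = 2 * √(P : ℝ) * L ^ (m + 1) := by ring
        _ ≤ 2 * √(P : ℝ) * (1 / 4 * √(P : ℝ)) := mul_le_mul_of_nonneg_left hroot (by positivity)
        _ = 1 / 2 * (√(P : ℝ) * √(P : ℝ)) := by ring
        _ = _ := by rw [Real.mul_self_sqrt hP0.le]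
    have h4 := norm_le_norm_sub_add (powSum k P θ) (WaringGoldbach.powTwist k θ Λ P)
    have h5 := norm_powSum_sub_le k (P := P) (by omega) θ
    rw [← hl] at h5
    linarith
  · rw [show (q : ℝ) * θ - ρ.num = q * (θ - ρ.num / q) by field_simp, abs_mul, Nat.abs_cast]
    refine (mul_le_mul_of_nonneg_left hρ hq0.le).trans ?_
    rw [mul_one_div, mul_comm ((Q : ℝ) + 1) (q : ℝ), ← div_div, div_self hq0.ne']
    rw [div_lt_iff₀ hX0] at hQlt
    rw [div_le_div_iff₀ (by positivity) (by rw [hNr]; positivity)]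
    linarith

/-- **The two sums are not both large.** -/
theorem not_both_large (hk : 2 ≤ k) {a b : ℝ} (hb : b ≠ 0) (m : ℕ) : ∃ D : ℕ,
    ∀ᶠ P : ℕ in atTop, convergentDen (a / b) P → ∀ α : ℝ,
      logOne P ^ D / (P : ℝ) ^ k < |α| → |α| ≤ logOne P →
        ‖powSum k P (a * α)‖ ≤ P / logOne P ^ m ∨ ‖powSum k P (b * α)‖ ≤ P / logOne P ^ m := by
  obtain ⟨B, hrat⟩ := exists_rational_of_large hk m
  refine ⟨B + 1, ?_⟩
  obtain ⟨C, hC⟩ : ∃ C, C = |a / b| + 1 + (|b| + 1) := ⟨_, rfl⟩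
  have hC0 : 0 < C := hC ▸ by positivity
  filter_upwards [hrat,
    eventually_logOne_pow_le (2 * B + 1) one_pos (show 0 < 1 / (2 * C) by positivity),
    eventually_logOne_pow_le B one_pos one_pos,
    tendsto_logOne.eventually (eventually_gt_atTop (1 / |b|)), eventually_ge_atTop 1]
    with P hrat hsmall hLP hLb hP1 hconv α hα1 hα2
  obtain ⟨A, -, hA, hPA⟩ := hconv
  obtain ⟨L, hL⟩ : ∃ L, L = logOne P := ⟨_, rfl⟩
  have hL1 : 1 ≤ L := hL ▸ one_le_logOne P
  rw [← hL] at hsmall hLP hLb hα1 hα2 ⊢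
  rw [Real.rpow_one] at hsmall
  rw [Real.rpow_one, one_mul] at hLP
  have hP0 : (0 : ℝ) < P := Nat.cast_pos.2 hP1
  have hP1r : (1 : ℝ) ≤ P := by exact_mod_cast hP1
  obtain ⟨X, hX⟩ : ∃ X, X = L ^ B := ⟨_, rfl⟩
  have hX1 : 1 ≤ X := hX ▸ one_le_pow₀ hL1
  have hX0 : 0 < X := by linarith
  rw [← hX] at hLP
  obtain ⟨N, hN⟩ : ∃ N : ℝ, N = (P : ℝ) ^ k := ⟨_, rfl⟩
  have hPN : (P : ℝ) ^ 2 ≤ N := hN ▸ pow_le_pow_right₀ hP1r hk
  have hN0 : 0 < N := hN ▸ pow_pos hP0 k
  by_contra hboth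
  simp only [not_or, not_le] at hboth
  obtain ⟨q₁, A₁, hq₁, hq₁X, h₁⟩ := hrat (a * α) (hL ▸ hboth.1)
  obtain ⟨q₂, A₂, hq₂, hq₂X, h₂⟩ := hrat (b * α) (hL ▸ hboth.2)
  rw [← hL, ← hX] at hq₁X h₁ hq₂X h₂
  rw [← hN] at h₁ h₂ hα1
  have hb0 : 0 < |b| := abs_pos.2 hb
  have hA₂ : A₂ ≠ 0 := by
    intro h0
    rw [h0, Int.cast_zero, sub_zero, abs_mul, abs_mul, Nat.abs_cast] at h₂
    have hq1 : (1 : ℝ) ≤ q₂ := by exact_mod_cast hq₂
    have h3 : |b| * |α| ≤ X / N := (le_mul_of_one_le_left (by positivity) hq1).trans h₂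
    have h4 : |α| ≤ 1 / |b| * (X / N) := by
      rw [one_div_mul_eq_div, le_div_iff₀ hb0]
      linarith
    have h5 : 1 / |b| * (X / N) ≤ L * (X / N) := mul_le_mul_of_nonneg_right hLb.le (by positivity)
    have h6 : L * (X / N) = L ^ (B + 1) / N := by
      rw [hX, pow_succ L B]
      ring
    linarith
  obtain ⟨n, hn⟩ : ∃ n : ℤ, n = A₂ * (q₁ : ℤ) := ⟨_, rfl⟩
  have hn0 : n ≠ 0 := hn ▸ mul_ne_zero hA₂ (by exact_mod_cast hq₁.ne')
  have hna : |(n : ℝ)| ≤ (|b| + 1) * (X * X * L) := by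
    have h3 : |(A₂ : ℝ)| ≤ X * (|b| * L) + 1 := by
      have h4 := abs_sub_abs_le_abs_sub (A₂ : ℝ) (q₂ * (b * α))
      rw [abs_sub_comm, abs_mul, abs_mul, Nat.abs_cast] at h4
      have h5 : (q₂ : ℝ) * (|b| * |α|) ≤ X * (|b| * L) :=
        mul_le_mul hq₂X (mul_le_mul_of_nonneg_left hα2 hb0.le) (by positivity) hX0.le
      have h6 : X / N ≤ 1 := (div_le_one hN0).2
        ((hLP.trans (le_self_pow₀ hP1r two_ne_zero)).trans hPN)
      linarith [le_abs_self (|(A₂ : ℝ)| - q₂ * (|b| * |α|))]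
    rw [hn]
    push_cast
    rw [abs_mul, Nat.abs_cast]
    calc |(A₂ : ℝ)| * q₁ ≤ (X * (|b| * L) + 1) * X :=
          mul_le_mul h3 hq₁X (Nat.cast_nonneg _) (by positivity)
      _ ≤ (X * (|b| * L) + X * L) * X := by gcongr; exact one_le_mul_of_one_le_of_one_le hX1 hL1
      _ = _ := by ring
  have hdist : |(n : ℝ) * (a / b) - ((A₁ * q₂ : ℤ) : ℝ)| ≤
      (|a / b| + 1) * (X * X / (P : ℝ) ^ 2) := by
    rw [hn]
    push_cast
    rw [show (A₂ : ℝ) * q₁ * (a / b) - A₁ * q₂ =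
      -(a / b * q₁ * (q₂ * (b * α) - A₂)) + q₂ * (q₁ * (a * α) - A₁) by field_simp; ring]
    refine (abs_add_le _ _).trans ?_
    rw [abs_neg, abs_mul, abs_mul, abs_mul, Nat.abs_cast, Nat.abs_cast]
    refine ((add_le_add (mul_le_mul (mul_le_mul_of_nonneg_left hq₁X (abs_nonneg (a / b))) h₂
      (abs_nonneg _) (by positivity)) (mul_le_mul hq₂X h₁ (abs_nonneg _) hX0.le)).trans
      (le_of_eq (show _ = (|a / b| + 1) * (X * X / N) by ring))).trans ?_
    exact mul_le_mul_of_nonneg_left (div_le_div_of_nonneg_left (by positivity) (by positivity) hPN)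
      (by positivity)
  have hXXL : L ^ (2 * B + 1) = X * X * L := by
    rw [hX, pow_succ, two_mul B, pow_add]
  rw [hXXL, one_div_mul_eq_div, le_div_iff₀ (by positivity)] at hsmall
  have hXX : 0 < X * X * L := by positivity
  have hb1 : (|b| + 1) * (X * X * L) < P := by
    have : 0 < (|a / b| + 1) * (X * X * L) := by positivity
    rw [hC] at hsmall
    linarith
  have hnq : |n| < (P : ℤ) := by
    rw [← Int.cast_lt (R := ℝ), Int.cast_abs, Int.cast_natCast]
    linarith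
  have hone := LinearFormsPrimes.one_le_abs_mul_sub (j := A₁ * q₂) hA hn0 hnq
  have hup : |(n : ℝ) * A - ((A₁ * q₂ : ℤ) : ℝ) * P| ≤
      P * ((|a / b| + 1) * (X * X / (P : ℝ) ^ 2)) + P * (|(n : ℝ)| * (1 / (P : ℝ) ^ 2)) := by
    rw [show (n : ℝ) * A - ((A₁ * q₂ : ℤ) : ℝ) * P = P * ((n : ℝ) * (a / b) -
      ((A₁ * q₂ : ℤ) : ℝ)) + -(P * (n * (a / b - A / P))) by field_simp; ring]
    refine (abs_add_le _ _).trans ?_
    rw [abs_neg, abs_mul, abs_mul, abs_mul, Nat.abs_cast]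
    gcongr
  have h1 := hone.trans hup
  rw [show (P : ℝ) * ((|a / b| + 1) * (X * X / (P : ℝ) ^ 2)) +
    P * (|(n : ℝ)| * (1 / (P : ℝ) ^ 2)) = ((|a / b| + 1) * (X * X) + |(n : ℝ)|) / P by
    field_simp, one_le_div hP0] at h1
  have h2 : (|a / b| + 1) * (X * X) ≤ (|a / b| + 1) * (X * X * L) :=
    mul_le_mul_of_nonneg_left (le_mul_of_one_le_right (by positivity) hL1) (by positivity)
  rw [hC] at hsmall
  linarith

/-- The width of the major interval. -/
def majorWidth (k D P : ℕ) : ℝ := logOne P ^ D / (P : ℝ) ^ k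

theorem majorWidth_nonneg (k D P : ℕ) : 0 ≤ majorWidth k D P :=
  div_nonneg (pow_nonneg (zero_le_one.trans (one_le_logOne P)) _) (pow_nonneg (Nat.cast_nonneg P) _)

/-- The sum of the `m`-th powers. -/
def momentSum (k m P : ℕ) (l : Fin s → ℝ) (α : ℝ) : ℝ := ∑ i, ‖powSum k P (l i * α)‖ ^ m

theorem momentSum_nonneg (k m P : ℕ) (l : Fin s → ℝ) (α : ℝ) : 0 ≤ momentSum k m P l α :=
  sum_nonneg fun _ _ => by positivity

theorem integrable_momentSum {η : ℝ} (hη : 0 < η) (k m P : ℕ) (l : Fin s → ℝ) :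
    Integrable fun α => gaussK η α * momentSum k m P l α := by
  refine integrable_kernel_mul_real hη (continuous_finsetSum _ fun i _ =>
    (continuous_powSum_mul k P (l i)).norm.pow m) (B := ∑ _i : Fin s, (2 * (P : ℝ)) ^ m) fun α => ?_
  rw [Real.norm_of_nonneg (momentSum_nonneg k m P l α)]
  exact sum_le_sum fun i _ => pow_le_pow_left₀ (norm_nonneg _) (norm_powSum_le _ _ _) m

theorem exists_momentSum_le {m e : ℕ}
    (hM : ∀ η c : ℝ, 0 < η → c ≠ 0 → ∃ C : ℝ, 0 < C ∧ ∀ P : ℕ, 1 ≤ P →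
      ∫ α : ℝ, gaussK η α * ‖powSum k P (c * α)‖ ^ m ≤ C * ((P : ℝ) ^ (m - k) * logOne P ^ e))
    {l : Fin s → ℝ} (hl : ∀ i, l i ≠ 0) {η : ℝ} (hη : 0 < η) : ∃ C : ℝ, 0 < C ∧ ∀ P : ℕ, 1 ≤ P →
      ∫ α : ℝ, gaussK η α * momentSum k m P l α ≤ C * ((P : ℝ) ^ (m - k) * logOne P ^ e) := by
  choose C hC h using fun i => hM η (l i) hη (hl i)
  refine ⟨∑ i, C i + 1, add_pos_of_nonneg_of_pos (sum_nonneg fun i _ => (hC i).le) one_pos,
    fun P hP => ?_⟩
  simp only [momentSum, mul_sum]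
  rw [integral_finsetSum _ fun i _ => ?_]
  · refine (sum_le_sum fun i _ => h i P hP).trans ?_
    rw [← sum_mul]
    exact mul_le_mul_of_nonneg_right (le_add_of_nonneg_right zero_le_one)
      (mul_nonneg (by positivity) (pow_nonneg (zero_le_one.trans (one_le_logOne P)) _))
  · refine integrable_kernel_mul_real hη ((continuous_powSum_mul k P (l i)).norm.pow m)
      (B := (2 * (P : ℝ)) ^ m) fun α => ?_
    rw [Real.norm_of_nonneg (by positivity)]
    exact pow_le_pow_left₀ (norm_nonneg _) (norm_powSum_le _ _ _) m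

/-- **The rest of the line.** -/
theorem exists_off_zero (hk : 2 ≤ k) {m : ℕ} (hM : MomentBound k m) (hkm : k ≤ m)
    (hms : m + 1 ≤ s) {l : Fin s → ℝ} (hl : ∀ i, l i ≠ 0) (a b : Fin s) :
    ∃ D : ℕ, ∀ η ε : ℝ, 0 < η → 0 < ε → ∀ᶠ P : ℕ in atTop, convergentDen (l a / l b) P →
      ∫ α in (Set.Icc (-majorWidth k D P) (majorWidth k D P))ᶜ,
        gaussK η α * ‖powProd k P l α‖ ≤ ε * (P : ℝ) ^ (s - k) := by
  obtain ⟨e, hM⟩ := hM
  obtain ⟨D, hboth⟩ := not_both_large hk (a := l a) (hl b) (e + 1)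
  refine ⟨D, fun η ε hη hε => ?_⟩
  obtain ⟨C₁, hC₁, h₁⟩ := exists_momentSum_le hM hl hη
  obtain ⟨C₂, hC₂, h₂⟩ := exists_momentSum_le hM hl (show 0 < η / √2 by positivity)
  filter_upwards [hboth, eventually_ge_atTop 1,
    tendsto_logOne.eventually (eventually_ge_atTop
      (max (2 / (π * η ^ 2)) ((C₁ + C₂) * 2 ^ s / ε))),
    tendsto_logOne.eventually (((Real.tendsto_pow_mul_exp_neg_atTop_nhds_zero (e + 1)).eventually
      (eventually_le_nhds one_pos)))] with P hboth hP1 hLbig hexp hconv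
  obtain ⟨L, hL⟩ : ∃ L, L = logOne P := ⟨_, rfl⟩
  have hL1 : 1 ≤ L := hL ▸ one_le_logOne P
  have hL0 : 0 < L := by linarith
  rw [← hL, max_le_iff] at hLbig
  rw [← hL] at hexp
  have hP0 : (0 : ℝ) < P := Nat.cast_pos.2 hP1
  obtain ⟨E, hE⟩ : ∃ E, E = Real.exp (-(π * η ^ 2 / 2) * L ^ 2) := ⟨_, rfl⟩
  have hE0 : 0 < E := hE ▸ Real.exp_pos _
  obtain ⟨R, hR⟩ : ∃ R, R = (2 * (P : ℝ)) ^ (s - m) := ⟨_, rfl⟩
  have hR0 : 0 ≤ R := hR ▸ by positivity
  obtain ⟨g, hg⟩ : ∃ g : ℝ → ℝ, g = fun α =>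
      1 / (2 * L ^ (e + 1)) * R * (gaussK η α * momentSum k m P l α) +
        E * R * (gaussK (η / √2) α * momentSum k m P l α) := ⟨_, rfl⟩
  have hi₁ := integrable_momentSum hη k m P l
  have hi₂ := integrable_momentSum (show 0 < η / √2 by positivity) k m P l
  have hgint : Integrable g := hg ▸ (hi₁.const_mul _).add (hi₂.const_mul _)
  have hg0 : ∀ α, 0 ≤ g α := fun α => by
    have := momentSum_nonneg k m P l α
    have := gaussK_pos η α
    have := gaussK_pos (η / √2) α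
    rw [hg]
    positivity
  refine (setIntegral_mono_on ?_ hgint.integrableOn measurableSet_Icc.compl fun α hα => ?_).trans
    ((setIntegral_le_integral hgint (ae_of_all _ hg0)).trans ?_)
  · exact (integrable_kernel_mul_real hη (continuous_powProd k P l).norm fun α => by
      rw [norm_norm]; exact norm_powProd_le k P l α).integrableOn
  · have hsub : ∀ (j : Fin s) (c : ℝ), 0 ≤ c → ‖powSum k P (l j * α)‖ ≤ c * (2 * P) →
        ‖powProd k P l α‖ ≤ c * R * momentSum k m P l α := fun j c hc hjc => by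
      rw [powProd, norm_prod, hR, momentSum]
      exact prod_le_sum_pow (fun i => ‖powSum k P (l i * α)‖) (by positivity)
        (fun i => norm_nonneg _) (fun i => norm_powSum_le _ _ _) j hjc hc hms
    have hout : majorWidth k D P < |α| := by
      rw [Set.mem_compl_iff, Set.mem_Icc] at hα
      by_contra hle
      exact hα (abs_le.1 (not_lt.1 hle))
    have hK := gaussK_pos η α
    have hK2 := gaussK_pos (η / √2) α
    have hs := momentSum_nonneg k m P l α
    rw [hg]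
    dsimp only
    rcases le_or_gt |α| L with hαL | hαL
    · refine le_trans ?_ (le_add_of_nonneg_right (by positivity))
      rw [mul_left_comm]
      refine mul_le_mul_of_nonneg_left ?_ hK.le
      have he : 1 / (2 * L ^ (e + 1)) * (2 * P) = (P : ℝ) / L ^ (e + 1) := by field_simp
      rcases hboth hconv α hout (hL ▸ hαL) with h | h
      · exact hsub a _ (by positivity) (by rw [he, hL]; exact h)
      · exact hsub b _ (by positivity) (by rw [he, hL]; exact h)
    · refine le_trans ?_ (le_add_of_nonneg_left (by positivity))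
      have hsplit : gaussK η α ≤ E * gaussK (η / √2) α := by
        simp only [hE, gaussK]
        rw [← Real.exp_add, Real.exp_le_exp, div_pow, Real.sq_sqrt two_pos.le]
        have h2 : L ^ 2 ≤ α ^ 2 := sq_le_sq.2 (by rw [abs_of_pos hL0]; linarith)
        have := mul_le_mul_of_nonneg_left h2 (show 0 ≤ π * η ^ 2 / 2 by positivity)
        linarith
      exact (mul_le_mul hsplit (hsub a 1 zero_le_one (by rw [one_mul]; exact norm_powSum_le _ _ _))
        (norm_nonneg _) (by positivity)).trans (le_of_eq (by ring))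
  · rw [hg, integral_add (hi₁.const_mul _) (hi₂.const_mul _), integral_const_mul,
      integral_const_mul]
    have h3 := mul_le_mul_of_nonneg_left (h₁ P hP1)
      (show 0 ≤ 1 / (2 * L ^ (e + 1)) * R by positivity)
    have h4 := mul_le_mul_of_nonneg_left (h₂ P hP1) (show 0 ≤ E * R by positivity)
    rw [← hL] at h3 h4
    have hEL : E * L ^ e ≤ 1 / L := by
      rw [le_div_iff₀ hL0, mul_assoc, ← pow_succ]
      refine le_trans ?_ hexp
      rw [mul_comm]
      refine mul_le_mul_of_nonneg_left ?_ (by positivity)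
      rw [hE, Real.exp_le_exp]
      have h5 : 2 ≤ π * η ^ 2 * L := by
        have := (div_le_iff₀ (by positivity)).1 hLbig.1
        linarith
      have := mul_le_mul_of_nonneg_right h5 hL0.le
      linarith
    have hY : R * (P : ℝ) ^ (m - k) ≤ 2 ^ s * (P : ℝ) ^ (s - k) := by
      rw [hR, mul_pow, mul_assoc, ← pow_add, show s - m + (m - k) = s - k by omega]
      exact mul_le_mul_of_nonneg_right (pow_le_pow_right₀ one_le_two (by omega)) (by positivity)
    have h8 : 1 / (2 * L ^ (e + 1)) * R * (C₁ * ((P : ℝ) ^ (m - k) * L ^ e)) ≤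
        C₁ * (1 / L) * (R * (P : ℝ) ^ (m - k)) := by
      rw [show 1 / (2 * L ^ (e + 1)) * R * (C₁ * ((P : ℝ) ^ (m - k) * L ^ e)) =
        1 / 2 * (C₁ * (1 / L) * (R * (P : ℝ) ^ (m - k))) by rw [pow_succ]; field_simp]
      exact mul_le_of_le_one_left (by positivity) (by norm_num)
    have h9 : E * R * (C₂ * ((P : ℝ) ^ (m - k) * L ^ e)) ≤
        C₂ * (1 / L) * (R * (P : ℝ) ^ (m - k)) := by
      have := mul_le_mul_of_nonneg_left hEL
        (show 0 ≤ C₂ * (R * (P : ℝ) ^ (m - k)) by positivity)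
      linarith
    have h10 : (C₁ + C₂) * (1 / L) * (2 ^ s * (P : ℝ) ^ (s - k)) ≤ ε * (P : ℝ) ^ (s - k) := by
      rw [← mul_assoc]
      refine mul_le_mul_of_nonneg_right ?_ (by positivity)
      rw [mul_one_div, div_mul_eq_mul_div, div_le_iff₀ hL0]
      have := (div_le_iff₀ hε).1 hLbig.2
      linarith
    have h11 := mul_le_mul_of_nonneg_left hY (show 0 ≤ (C₁ + C₂) * (1 / L) by positivity)
    linarith

end FA.PrimePowerInequality

end
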