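import Fermat.Agent.PrimePowerInequality.Sum
import Fermat.Agent.LinearFormsPrimes.Main

/-!
# Tuples of primes with a small value

If two coefficients differ in sign then `|∑ lᵢ pᵢ ^ k| ≤ h P ^ k` on tuples of total weight
`≫ h P ^ s`: fix the other primes and let one run over an interval, by the prime number theorem.
-/

set_option autoImplicit false

noncomputable section

namespace FA.PrimePowerInequality

open Finset Filter Topology
open FA.DiophantineInequality (diagForm)
open FA.LinearFormsPrimes (primesIn mem_primesIn primesIn_subset eventually_interval)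
open scoped Real

variable {k s : ℕ}

/-- **The tuples with a small value.** -/
theorem exists_small_values (hk : 1 ≤ k) {l : Fin s → ℝ} {a b : Fin s} (ha : 0 < l a)
    (hb : l b < 0) : ∃ g κ : ℝ, 0 < g ∧ 0 < κ ∧ ∀ h : ℝ, 0 < h → h ≤ κ → ∀ᶠ P : ℕ in atTop,
      g * h * (P : ℝ) ^ s ≤ ∑ x ∈ (primeBox s P).filter
        (fun x => |diagForm k l x| ≤ h * (P : ℝ) ^ k), tupleWeight x := by
  have hab : a ≠ b := fun h => by rw [h] at ha; linarith
  obtain ⟨v, hv⟩ : ∃ v, v = -l b := ⟨_, rfl⟩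
  have hv0 : 0 < v := by linarith
  obtain ⟨Λ₀, hΛ⟩ : ∃ Λ₀, Λ₀ = ∑ i, |l i| + 1 := ⟨_, rfl⟩
  have hΛ0 : 0 < Λ₀ := hΛ ▸ add_pos_of_nonneg_of_pos (sum_nonneg fun i _ => abs_nonneg _) one_pos
  obtain ⟨σ, hσ⟩ : ∃ σ, σ = min 1 (l a / (4 * v)) := ⟨_, rfl⟩
  have hσ0 : 0 < σ := hσ ▸ lt_min one_pos (by positivity)
  have hσ1 : σ ≤ 1 := hσ ▸ min_le_left _ _
  have hσa : σ * (4 * v) ≤ l a := (le_div_iff₀ (by positivity)).1 (hσ ▸ min_le_right _ _)
  obtain ⟨ρ, hρ⟩ : ∃ ρ, ρ = min 1 (v * (σ / 2) ^ k / (4 * Λ₀)) := ⟨_, rfl⟩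
  have hρ0 : 0 < ρ := hρ ▸ lt_min one_pos (by positivity)
  have hρ1 : ρ ≤ 1 := hρ ▸ min_le_left _ _
  have hρv : ρ * (4 * Λ₀) ≤ v * (σ / 2) ^ k :=
    (le_div_iff₀ (by positivity)).1 (hρ ▸ min_le_right _ _)
  obtain ⟨x₀, hx₀⟩ : ∃ x₀, x₀ = v * (σ / 2) ^ k / (2 * l a) := ⟨_, rfl⟩
  have hx00 : 0 < x₀ := hx₀ ▸ by positivity
  have hσk : σ ^ k ≤ σ := pow_le_of_le_one hσ0.le hσ1 (by omega)
  have hσ2k : (σ / 2) ^ k ≤ σ ^ k := pow_le_pow_left₀ (by positivity) (by linarith) k
  have hx01 : x₀ ≤ 1 / 4 := by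
    rw [hx₀, div_le_iff₀ (by positivity)]
    have := mul_le_mul_of_nonneg_left (hσ2k.trans hσk) hv0.le
    linarith
  have hk0 : (0 : ℝ) < k := Nat.cast_pos.2 hk
  obtain ⟨c₁, hc₁⟩ : ∃ c : Fin s → ℝ,
      c = fun i => if i = a then 1 else if i = b then σ / 4 else ρ / 4 := ⟨_, rfl⟩
  have hc₁0 : ∀ i, 0 < c₁ i := fun i => by
    rw [hc₁]
    dsimp only
    split_ifs <;> positivity
  refine ⟨(∏ i ∈ univ.erase a, c₁ i) / (k * l a), l a * x₀ / 2,
    div_pos (prod_pos fun i _ => hc₁0 i) (by positivity), by positivity, fun h hh hhκ => ?_⟩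
  obtain ⟨d, hd⟩ : ∃ d, d = h / l a := ⟨_, rfl⟩
  have hd0 : 0 < d := hd ▸ by positivity
  have hdx : d ≤ x₀ / 2 := by
    rw [hd, div_le_iff₀ ha]
    linarith
  filter_upwards [eventually_interval (u := σ / 2) (w := σ / 2) (by positivity) (by positivity),
    eventually_interval (u := ρ / 2) (w := ρ / 2) (by positivity) (by positivity),
    eventually_interval (u := x₀ / 2) (w := 2 * d / k) (by positivity) (by positivity),
    eventually_ge_atTop 2] with P hI₂ hI₃ hI₁ hP2
  have hP0 : (0 : ℝ) < P := Nat.cast_pos.2 (by omega)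
  obtain ⟨N, hN⟩ : ∃ N : ℝ, N = (P : ℝ) ^ k := ⟨_, rfl⟩
  have hN0 : 0 < N := hN ▸ pow_pos hP0 k
  rw [← hN]
  have h2mem : 2 ∈ Equidist.primeSet P := mem_filter.2 ⟨mem_range.2 (by omega), Nat.prime_two⟩
  obtain ⟨B, hB⟩ : ∃ B : Fin s → Finset ℕ, B = fun i => if i = a then {2} else if i = b then
      primesIn (σ / 2 * P) (σ * P) else primesIn (ρ / 2 * P) (ρ * P) := ⟨_, rfl⟩
  have hBsub : ∀ i, B i ⊆ Equidist.primeSet P := fun i => by
    rw [hB]
    dsimp only
    split_ifs
    exacts [singleton_subset_iff.2 h2mem, primesIn_subset (mul_le_of_le_one_left hP0.le hσ1),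
      primesIn_subset (mul_le_of_le_one_left hP0.le hρ1)]
  have hlog : ∀ i ∈ univ.erase a, c₁ i * P ≤ ∑ p ∈ B i, Real.log p := fun i hi => by
    rw [hB, hc₁]
    simp only [if_neg (ne_of_mem_erase hi)]
    split_ifs
    · have := hI₂ _ (σ * P) le_rfl (le_of_eq (by ring)) (mul_le_of_le_one_left hP0.le hσ1)
      linarith
    · have := hI₃ _ (ρ * P) le_rfl (le_of_eq (by ring)) (mul_le_of_le_one_left hP0.le hρ1)
      linarith
  obtain ⟨X, hX⟩ : ∃ X : (Fin s → ℕ) → ℝ,
      X = fun x => (-∑ i ∈ univ.erase a, l i * (x i : ℝ) ^ k) / l a := ⟨_, rfl⟩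
  have hXb : ∀ x ∈ Fintype.piFinset B, x₀ * N ≤ X x ∧ X x ≤ 3 / 4 * N := by
    intro x hx
    rw [Fintype.mem_piFinset] at hx
    have hxb := hx b
    simp only [hB, if_neg hab.symm, if_true] at hxb
    rw [mem_primesIn (by positivity) (by positivity)] at hxb
    have hsmall : |∑ i ∈ (univ.erase a).erase b, l i * (x i : ℝ) ^ k| ≤ Λ₀ * (ρ * P) ^ k := by
      refine (abs_sum_le_sum_abs _ _).trans ((sum_le_sum (g := fun i => |l i| * (ρ * P) ^ k)
        fun i hi => ?_).trans ?_)
      · have hxi := hx i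
        simp only [hB, if_neg (ne_of_mem_erase (mem_of_mem_erase hi)),
          if_neg (ne_of_mem_erase hi)] at hxi
        rw [mem_primesIn (by positivity) (by positivity)] at hxi
        rw [abs_mul, abs_of_nonneg (show (0 : ℝ) ≤ (x i : ℝ) ^ k by positivity)]
        exact mul_le_mul_of_nonneg_left (pow_le_pow_left₀ (Nat.cast_nonneg _) hxi.1.2 k)
          (abs_nonneg _)
      · rw [← sum_mul]
        refine mul_le_mul_of_nonneg_right (le_trans (sum_le_sum_of_subset_of_nonneg
          (t := univ) (subset_univ _) fun i _ _ => abs_nonneg _) ?_) (by positivity)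
        linarith
    have hρk : Λ₀ * (ρ * P) ^ k ≤ v * (σ / 2) ^ k / 4 * N := by
      rw [mul_pow, ← hN, ← mul_assoc]
      refine mul_le_mul_of_nonneg_right ?_ hN0.le
      have := mul_le_mul_of_nonneg_left (pow_le_of_le_one hρ0.le hρ1 (by omega : k ≠ 0)) hΛ0.le
      linarith
    have h1 := mul_le_mul_of_nonneg_left (pow_le_pow_left₀ (by positivity) hxb.1.1.le k) hv0.le
    have h2 := mul_le_mul_of_nonneg_left (pow_le_pow_left₀ (Nat.cast_nonneg _) hxb.1.2 k) hv0.le
    rw [mul_pow, ← hN, ← mul_assoc] at h1 h2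
    have he : X x = (v * (x b : ℝ) ^ k -
        ∑ i ∈ (univ.erase a).erase b, l i * (x i : ℝ) ^ k) / l a := by
      rw [hX]
      simp only
      rw [← add_sum_erase _ _ (mem_erase.2 ⟨hab.symm, mem_univ b⟩), hv]
      ring
    rw [abs_le] at hsmall
    rw [he]
    constructor
    · rw [hx₀, div_mul_eq_mul_div, div_le_div_iff₀ (by positivity) ha]
      have h3 := mul_le_mul_of_nonneg_right (show v * (σ / 2) ^ k * (3 / 4) * N ≤
        v * (x b : ℝ) ^ k - ∑ i ∈ (univ.erase a).erase b, l i * (x i : ℝ) ^ k by linarith) ha.le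
      have : 0 ≤ v * (σ / 2) ^ k * N * l a := by positivity
      linarith
    · rw [div_le_iff₀ ha]
      have h3 := mul_le_mul_of_nonneg_right (mul_le_mul_of_nonneg_left hσk hv0.le) hN0.le
      have h4 := mul_le_mul_of_nonneg_right (mul_le_mul_of_nonneg_left hσ2k hv0.le) hN0.le
      have h5 := mul_le_mul_of_nonneg_right hσa hN0.le
      have : 0 ≤ l a * N := by positivity
      linarith
  obtain ⟨T, hT⟩ : ∃ T : (Fin s → ℕ) → Finset ℕ,
      T = fun x => primesIn ((X x - d * N) ^ (k⁻¹ : ℝ)) ((X x + d * N) ^ (k⁻¹ : ℝ)) := ⟨_, rfl⟩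
  have hTprop : ∀ x ∈ Fintype.piFinset B, T x ⊆ Equidist.primeSet P ∧
      d / k * P ≤ ∑ p ∈ T x, Real.log p ∧ ∀ p ∈ T x, |(p : ℝ) ^ k - X x| ≤ d * N := by
    intro x hx
    obtain ⟨hx1, hx2⟩ := hXb x hx
    have hdN := mul_le_mul_of_nonneg_right hdx hN0.le
    have hxN := mul_le_mul_of_nonneg_right hx01 hN0.le
    obtain ⟨lo, hlo⟩ : ∃ w, w = (X x - d * N) ^ (k⁻¹ : ℝ) := ⟨_, rfl⟩
    obtain ⟨hi, hhi⟩ : ∃ w, w = (X x + d * N) ^ (k⁻¹ : ℝ) := ⟨_, rfl⟩
    have hlo0 : 0 ≤ X x - d * N := by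
      have : 0 ≤ x₀ * N := by positivity
      linarith
    have hhi0 : 0 ≤ X x + d * N := by
      have : 0 ≤ d * N := by positivity
      linarith
    have hlok : lo ^ k = X x - d * N :=
      hlo ▸ Real.rpow_inv_natCast_pow hlo0 (by omega : k ≠ 0)
    have hhik : hi ^ k = X x + d * N :=
      hhi ▸ Real.rpow_inv_natCast_pow hhi0 (by omega : k ≠ 0)
    have hlo' : 0 ≤ lo := hlo ▸ Real.rpow_nonneg hlo0 _
    have hhi' : 0 ≤ hi := hhi ▸ Real.rpow_nonneg hhi0 _
    have hlohi : lo ≤ hi := by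
      refine le_of_pow_le_pow_left₀ (n := k) (by omega) hhi' ?_
      rw [hlok, hhik]
      have : 0 ≤ d * N := by positivity
      linarith
    have hhiP : hi ≤ P := by
      refine le_of_pow_le_pow_left₀ (n := k) (by omega) hP0.le ?_
      rw [hhik, ← hN]
      linarith
    have hlow : x₀ / 2 * P ≤ lo := by
      refine le_of_pow_le_pow_left₀ (n := k) (by omega) hlo' ?_
      rw [hlok, mul_pow, ← hN]
      have := mul_le_mul_of_nonneg_right
        (pow_le_of_le_one (a := x₀ / 2) (n := k) (by positivity) (by linarith) (by omega)) hN0.le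
      linarith
    have hgap : lo + 2 * d / k * P ≤ hi := by
      have h1 := abs_pow_sub_pow_le hi lo k
      rw [hlok, hhik, abs_of_nonneg (show 0 ≤ hi - lo by linarith), abs_of_nonneg hhi',
        abs_of_nonneg hlo', max_eq_left hlohi] at h1
      have h2 : (hi - lo) * k * hi ^ (k - 1) ≤ (hi - lo) * k * (P : ℝ) ^ (k - 1) :=
        mul_le_mul_of_nonneg_left (pow_le_pow_left₀ hhi' hhiP _)
          (mul_nonneg (by linarith) hk0.le)
      have h3 : 2 * d * (P : ℝ) ^ (k - 1) * P ≤ (hi - lo) * k * (P : ℝ) ^ (k - 1) := by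
        rw [mul_assoc (2 * d), ← pow_succ, show k - 1 + 1 = k by omega, ← hN]
        linarith [le_abs_self (X x + d * N - (X x - d * N))]
      have h4 : 2 * d * P ≤ (hi - lo) * k :=
        le_of_mul_le_mul_right (a := (P : ℝ) ^ (k - 1)) (by linarith) (by positivity)
      rw [div_mul_eq_mul_div, ← le_sub_iff_add_le', div_le_iff₀ hk0]
      exact h4
    have hTx : T x = primesIn lo hi := by rw [hT, hlo, hhi]
    rw [hTx]
    refine ⟨primesIn_subset hhiP, ?_, fun p hp => ?_⟩
    · have hI := hI₁ lo hi hlow hgap hhiP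
      rw [show 2 * d / k / 2 * (P : ℝ) = d / k * P by ring] at hI
      exact hI
    · rw [mem_primesIn hlo' hhi'] at hp
      rw [abs_le]
      have h1 := pow_le_pow_left₀ hlo' hp.1.1.le k
      have h2 := pow_le_pow_left₀ (Nat.cast_nonneg p) hp.1.2 k
      rw [hlok] at h1
      rw [hhik] at h2
      constructor <;> linarith
  obtain ⟨U, hU⟩ : ∃ U, U = (Fintype.piFinset B).sigma T := ⟨_, rfl⟩
  have hinj : Set.InjOn (fun z : Σ _ : Fin s → ℕ, ℕ => Function.update z.1 a z.2) U := by
    intro z hz z' hz' e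
    rw [mem_coe, hU, mem_sigma] at hz hz'
    have h1 : z.1 = z'.1 := by
      funext i
      rcases eq_or_ne i a with rfl | hi
      · have h2 := Fintype.mem_piFinset.1 hz.1 i
        have h3 := Fintype.mem_piFinset.1 hz'.1 i
        simp only [hB, if_true, mem_singleton] at h2 h3
        rw [h2, h3]
      · simpa [Function.update_of_ne hi] using congrFun e i
    exact Sigma.ext h1 (heq_of_eq (by simpa using congrFun e a))
  refine le_trans ?_ (sum_le_sum_of_subset_of_nonneg
    (s := U.image fun z => Function.update z.1 a z.2) (fun y hy => ?_)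
      fun i _ _ => tupleWeight_nonneg i)
  · rw [sum_image hinj, hU, sum_sigma]
    have hw : ∀ (x : Fin s → ℕ) (p : ℕ), tupleWeight (Function.update x a p) =
        Real.log p * ∏ i ∈ univ.erase a, Real.log (x i) := fun x p => by
      rw [tupleWeight, ← mul_prod_erase univ _ (mem_univ a), Function.update_self]
      exact congrArg _ (prod_congr rfl fun i hi => by
        rw [Function.update_of_ne (ne_of_mem_erase hi)])
    refine le_trans ?_ (sum_le_sum (f := fun x => d / k * P * ∏ i ∈ univ.erase a, Real.log (x i))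
      fun x hx => ?_)
    · rw [← mul_sum]
      obtain ⟨f, hf⟩ : ∃ f : Fin s → ℕ → ℝ,
          f = fun (i : Fin s) (n : ℕ) => if i = a then (1 : ℝ) else Real.log n := ⟨_, rfl⟩
      have hfprod : ∀ x : Fin s → ℕ, ∏ i, f i (x i) = ∏ i ∈ univ.erase a, Real.log (x i) :=
        fun x => by
        rw [← mul_prod_erase univ _ (mem_univ a), hf]
        simp only [if_true, one_mul]
        exact prod_congr rfl fun i hi => by rw [if_neg (ne_of_mem_erase hi)]
      rw [← sum_congr rfl fun x _ => hfprod x, ← prod_univ_sum B f,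
        ← mul_prod_erase univ _ (mem_univ a)]
      have hfa : ∑ n ∈ B a, f a n = 1 := by simp [hB, hf]
      rw [hfa, one_mul]
      refine le_trans (le_of_eq ?_) (mul_le_mul_of_nonneg_left
        (prod_le_prod (f := fun i => c₁ i * P) (fun i _ => mul_nonneg (hc₁0 i).le hP0.le)
          fun i hi => (hlog i hi).trans (le_of_eq (sum_congr rfl fun n _ => by
            rw [hf]; simp only [if_neg (ne_of_mem_erase hi)]))) (by positivity))
      rw [prod_mul_distrib, prod_const, card_erase_of_mem (mem_univ a), card_univ,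
        Fintype.card_fin, hd, show (P : ℝ) ^ s = (P : ℝ) ^ (s - 1) * P by
          rw [← pow_succ]; congr 1; have := a.pos; omega]
      ring
    · simp only [hw]
      rw [← sum_mul]
      exact mul_le_mul_of_nonneg_right (hTprop x hx).2.1
        (prod_nonneg fun i _ => Real.log_natCast_nonneg _)
  · obtain ⟨z, hz, rfl⟩ := mem_image.1 hy
    rw [hU, mem_sigma] at hz
    obtain ⟨hsub, -, hclose⟩ := hTprop z.1 hz.1
    rw [mem_filter, primeBox, Fintype.mem_piFinset]
    refine ⟨fun i => ?_, ?_⟩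
    · rcases eq_or_ne i a with rfl | hi
      · rw [Function.update_self]
        exact hsub hz.2
      · rw [Function.update_of_ne hi]
        exact hBsub i (Fintype.mem_piFinset.1 hz.1 i)
    · rw [diagForm, ← add_sum_erase univ _ (mem_univ a), Function.update_self,
        sum_congr rfl fun i hi => by rw [Function.update_of_ne (ne_of_mem_erase hi)]]
      have he : ∑ i ∈ univ.erase a, l i * (z.1 i : ℝ) ^ k = -(l a * X z.1) := by
        rw [hX]
        field_simp
      rw [he, ← sub_eq_add_neg, ← mul_sub, abs_mul, abs_of_pos ha,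
        show h * N = l a * (d * N) by rw [hd]; field_simp]
      exact mul_le_mul_of_nonneg_left (hclose z.2 hz.2) ha.le

end FA.PrimePowerInequality

end
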