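import Fermat.Agent.PrimePowerInequality.Main
import Fermat.Agent.HuaSquares.Moment
import Fermat.Agent.HuaCubes.Moment

/-!
# The moments

`2 t`-th moments with `2 t > k (k + 1)` come from Vinogradov's mean value theorem, the fourth for
squares from the divisor bound, the eighth for cubes from Hua's lemma.
-/

set_option autoImplicit false

noncomputable section

namespace FA.PrimePowerInequality

open Finset
open FA.ThreePrimes (logOne one_le_logOne)
open FA.WaringAsymptotic (powerDiagonal)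
open scoped Real

/-- Vinogradov's moment. -/
theorem momentBound_vinogradov {k : ℕ} (hk : 2 ≤ k) :
    MomentBound k (2 * DiophantineInequality.halfMoment k) := by
  obtain ⟨C, hC, h⟩ := WaringGoldbach.exists_powerDiagonal_le hk
    (DiophantineInequality.lt_two_mul_halfMoment k)
  refine momentBound_of_diagonal (f := 0) hC fun P hP => (h P hP).trans (le_of_eq ?_)
  have : k ≤ 2 * DiophantineInequality.halfMoment k :=
    (Nat.le_mul_of_pos_right k (by omega)).trans (DiophantineInequality.lt_two_mul_halfMoment k).le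
  rw [pow_zero, mul_one, ← Real.rpow_natCast _ (2 * DiophantineInequality.halfMoment k - k),
    Nat.cast_sub this]
  push_cast
  rfl

theorem powerDiagonal_two_le (P : ℕ) :
    powerDiagonal 2 2 P ≤ ∑ z ∈ Ioc 0 P ×ˢ Ioc 0 P,
      ((Ioc 0 P ×ˢ Ioc 0 P).filter fun w => z.1 ^ 2 + w.1 ^ 2 = z.2 ^ 2 + w.2 ^ 2).card := by
  rw [← card_sigma, powerDiagonal]
  refine card_le_card_of_injOn (fun z => ⟨(z.1 0, z.2 0), (z.1 1, z.2 1)⟩) (fun z hz => ?_) ?_
  · simp only [mem_coe, mem_filter, mem_product, Korobov.box, Fintype.mem_piFinset, mem_Icc,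
      Fin.sum_univ_two] at hz
    simp only [mem_coe, mem_sigma, mem_filter, mem_product, mem_Ioc]
    have h0 := hz.1.1 0
    have h1 := hz.1.1 1
    have h2 := hz.1.2 0
    have h3 := hz.1.2 1
    exact ⟨⟨⟨h0.1, h0.2⟩, h2.1, h2.2⟩, ⟨⟨h1.1, h1.2⟩, h3.1, h3.2⟩, hz.2⟩
  · intro z _ w _ h
    simp only [Sigma.mk.injEq, heq_eq_eq, Prod.mk.injEq] at h
    obtain ⟨⟨h0, h1⟩, h2, h3⟩ := h
    refine Prod.ext (funext fun i => ?_) (funext fun i => ?_) <;> fin_cases i <;> assumption

/-- The fourth moment for squares. -/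
theorem momentBound_squares : MomentBound 2 4 := by
  refine momentBound_of_diagonal (t := 2) (f := 3) (C₀ := 192) (by norm_num) fun P _ => ?_
  refine (Nat.cast_le.2 (powerDiagonal_two_le P)).trans ?_
  rw [Nat.cast_sum]
  refine (HuaSquares.sum_quadruples_le P).trans (le_of_eq ?_)
  rw [HuaSquares.scale, mul_pow]
  norm_num
  ring

theorem powerDiagonal_three_le (P : ℕ) : powerDiagonal 3 4 P ≤ HuaCubes.eighthMoment P := by
  rw [← HuaCubes.coincidences_quads, HuaCubes.coincidences, ← card_sigma, powerDiagonal]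
  refine card_le_card_of_injOn (fun z =>
    ⟨((z.1 0, z.1 1), (z.2 0, z.2 1)), ((z.2 2, z.2 3), (z.1 2, z.1 3))⟩) (fun z hz => ?_) ?_
  · simp only [mem_coe, mem_filter, mem_product, Korobov.box, Fintype.mem_piFinset, mem_Icc,
      Fin.sum_univ_four] at hz
    simp only [mem_coe, mem_sigma, mem_filter, HuaCubes.quads, HuaCubes.pairs, mem_product,
      mem_Ioc]
    have a0 := hz.1.1 0
    have a1 := hz.1.1 1
    have a2 := hz.1.1 2
    have a3 := hz.1.1 3
    have b0 := hz.1.2 0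
    have b1 := hz.1.2 1
    have b2 := hz.1.2 2
    have b3 := hz.1.2 3
    refine ⟨⟨⟨⟨a0.1, a0.2⟩, a1.1, a1.2⟩, ⟨b0.1, b0.2⟩, b1.1, b1.2⟩,
      ⟨⟨⟨b2.1, b2.2⟩, b3.1, b3.2⟩, ⟨a2.1, a2.2⟩, a3.1, a3.2⟩, ?_⟩
    have h : (((z.1 0 ^ 3 + z.1 1 ^ 3 + z.1 2 ^ 3 + z.1 3 ^ 3 : ℕ)) : ℤ) =
        ((z.2 0 ^ 3 + z.2 1 ^ 3 + z.2 2 ^ 3 + z.2 3 ^ 3 : ℕ) : ℤ) := by rw [hz.2]
    push_cast at h
    simp only [HuaCubes.quadVal, HuaCubes.pairSum]
    linarith
  · intro z _ w _ h
    simp only [Sigma.mk.injEq, heq_eq_eq, Prod.mk.injEq] at h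
    obtain ⟨⟨⟨a0, a1⟩, b0, b1⟩, ⟨b2, b3⟩, a2, a3⟩ := h
    refine Prod.ext (funext fun i => ?_) (funext fun i => ?_) <;> fin_cases i <;> assumption

/-- The eighth moment for cubes. -/
theorem momentBound_cubes : MomentBound 3 8 := by
  obtain ⟨C, hC, h⟩ := HuaCubes.exists_eighthMoment_le
  exact momentBound_of_diagonal (t := 4) hC fun P _ =>
    (Nat.cast_le.2 (powerDiagonal_three_le P)).trans (h P)

end FA.PrimePowerInequality

end
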