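import Fermat.Agent.PrimePowerInequality.Box
import Fermat.Agent.PrimePowerInequality.Major

/-!
# Diophantine inequalities in powers of primes

Given a bound for the `m`-th moment with `k ≤ m < s` and `s > 2 k`, the weighted count is
`η J + o (P ^ (s - k))` along the denominators of the approximations of an irrational ratio, and
`J ≫ P ^ (s - k)` when two coefficients differ in sign.
-/

set_option autoImplicit false

noncomputable section

namespace FA.PrimePowerInequality

open Finset Filter Topology MeasureTheory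
open FA.ThreePrimes (eAdd norm_eAdd eAdd_zero logOne one_le_logOne)
open FA.DiophantineInequality (gaussW gaussK gaussW_pos gaussK_pos gaussK_le_one diagForm
  integrable_kernel_mul integrable_kernel_mul_real continuous_eAdd)
open FA.LinearFormsPrimes (tendsto_logOne)
open scoped Real

variable {k s : ℕ}

/-- The major part. -/
def majorPart (k D P : ℕ) (l : Fin s → ℝ) : ℂ :=
  ∫ α in Set.Icc (-majorWidth k D P) (majorWidth k D P), powProd k P l α

/-- The conclusion of `exists_off_zero`. -/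
def OffZero (k D : ℕ) (r : ℝ) (l : Fin s → ℝ) : Prop :=
  ∀ η ε : ℝ, 0 < η → 0 < ε → ∀ᶠ P : ℕ in atTop, convergentDen r P →
    ∫ α in (Set.Icc (-majorWidth k D P) (majorWidth k D P))ᶜ,
      gaussK η α * ‖powProd k P l α‖ ≤ ε * (P : ℝ) ^ (s - k)

theorem continuous_kernel_diff (k P : ℕ) (l : Fin s → ℝ) (η μ : ℝ) : Continuous fun α =>
    ‖(gaussK η α : ℂ) * eAdd (-(μ * α)) - 1‖ * ‖powProd k P l α‖ :=
  (Continuous.norm (((Complex.continuous_ofReal.comp (by unfold gaussK; fun_prop)).mul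
    (continuous_eAdd.comp (continuous_const.mul continuous_id).neg)).sub continuous_const)).mul
    (continuous_powProd k P l).norm

theorem norm_count_sub_major_le (k D P : ℕ) (l : Fin s → ℝ) {η : ℝ} (hη : 0 < η) (μ : ℝ) :
    ‖((weightedBox k P l η μ / η : ℝ) : ℂ) - majorPart k D P l‖ ≤
      (∫ α in Set.Icc (-majorWidth k D P) (majorWidth k D P),
        ‖(gaussK η α : ℂ) * eAdd (-(μ * α)) - 1‖ * ‖powProd k P l α‖) +
      ∫ α in (Set.Icc (-majorWidth k D P) (majorWidth k D P))ᶜ,
        gaussK η α * ‖powProd k P l α‖ := by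
  have hint : Integrable fun α => (gaussK η α : ℂ) * (powProd k P l α * eAdd (-(μ * α))) :=
    integrable_kernel_mul hη (F := fun α => powProd k P l α * eAdd (-(μ * α)))
      ((continuous_powProd k P l).mul
        (continuous_eAdd.comp (continuous_const.mul continuous_id).neg))
      fun α => by rw [norm_mul, norm_eAdd, mul_one]; exact norm_powProd_le k P l α
  rw [weightedBox_div_eq k P l hη, ← integral_add_compl measurableSet_Icc hint,
    add_sub_right_comm, majorPart,
    ← integral_sub hint.integrableOn (continuous_powProd k P l).integrableOn_Icc]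
  refine (norm_add_le _ _).trans (add_le_add ((norm_integral_le_integral_norm _).trans
    (le_of_eq (integral_congr_ae (ae_of_all _ fun α => ?_))))
    ((norm_integral_le_integral_norm _).trans
    (le_of_eq (integral_congr_ae (ae_of_all _ fun α => ?_)))))
  · dsimp only
    rw [← norm_mul, sub_mul, one_mul]
    ring_nf
  · dsimp only
    rw [norm_mul, norm_mul, norm_eAdd, mul_one, Complex.norm_real, Real.norm_eq_abs,
      abs_of_pos (gaussK_pos η α)]

/-- **The count is `η J + o (P ^ (s - k))`.** -/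
theorem eventually_count_near (hk : 1 ≤ k) (hs : 2 * k + 1 ≤ s) {l : Fin s → ℝ}
    (hl : ∀ i, l i ≠ 0) {D : ℕ} {r : ℝ} (hoff : OffZero k D r l) {η ε : ℝ} (hη : 0 < η) (μ : ℝ)
    (hε : 0 < ε) : ∀ᶠ P : ℕ in atTop, convergentDen r P →
      ‖((weightedBox k P l η μ / η : ℝ) : ℂ) - majorPart k D P l‖ ≤
        ε * (P : ℝ) ^ (s - k) := by
  obtain ⟨C, hC, habs⟩ := exists_major_abs hk hs hl D
  obtain ⟨K, hK⟩ : ∃ K, K = π * η ^ 2 + 2 * π * |μ| := ⟨_, rfl⟩
  have hK0 : 0 ≤ K := hK ▸ by positivity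
  filter_upwards [hoff η (ε / 2) hη (half_pos hε), habs,
    (tendsto_majorWidth hk D).eventually (eventually_le_nhds one_pos),
    ((tendsto_majorWidth hk D).const_mul (K * C)).eventually
      (eventually_le_nhds (show K * C * 0 < ε / 2 by linarith))]
    with P hoff habs hδ1 hsmall hconv
  refine (norm_count_sub_major_le k D P l hη μ).trans ?_
  obtain ⟨δ, hδ⟩ : ∃ δ, δ = majorWidth k D P := ⟨_, rfl⟩
  rw [← hδ] at hoff habs hδ1 hsmall ⊢
  have hδ0 : 0 ≤ δ := hδ ▸ majorWidth_nonneg k D P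
  have hmaj : ∫ α in Set.Icc (-δ) δ,
      ‖(gaussK η α : ℂ) * eAdd (-(μ * α)) - 1‖ * ‖powProd k P l α‖ ≤
        K * δ * (C * (P : ℝ) ^ (s - k)) := by
    refine (setIntegral_mono_on (continuous_kernel_diff k P l η μ).integrableOn_Icc
      (((continuous_powProd k P l).norm.const_mul (K * δ)).integrableOn_Icc)
      measurableSet_Icc fun α hα => ?_).trans ?_
    · refine mul_le_mul_of_nonneg_right ?_ (norm_nonneg _)
      have hαδ : |α| ≤ δ := abs_le.2 hα
      rw [show (gaussK η α : ℂ) * eAdd (-(μ * α)) - 1 =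
        ((gaussK η α - 1 : ℝ) : ℂ) * eAdd (-(μ * α)) + (eAdd (-(μ * α)) - 1) by push_cast; ring]
      refine (norm_add_le _ _).trans ?_
      rw [norm_mul, norm_eAdd, mul_one, Complex.norm_real, Real.norm_eq_abs, abs_sub_comm,
        abs_of_nonneg (sub_nonneg.2 (gaussK_le_one η α))]
      have h1 : 1 - gaussK η α ≤ π * η ^ 2 * α ^ 2 := by
        have := Real.add_one_le_exp (-(π * η ^ 2) * α ^ 2)
        rw [gaussK]
        linarith
      have h2 := ThreePrimes.norm_eAdd_sub_one_le (-(μ * α))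
      rw [abs_neg, abs_mul] at h2
      have h3 : α ^ 2 ≤ δ := by
        rw [← sq_abs]
        exact le_trans (by rw [sq]; exact mul_le_mul hαδ (hαδ.trans hδ1) (abs_nonneg _) hδ0)
          (le_of_eq (mul_one δ))
      have := mul_le_mul_of_nonneg_left h3 (show 0 ≤ π * η ^ 2 by positivity)
      have := mul_le_mul_of_nonneg_left hαδ (show 0 ≤ 2 * π * |μ| by positivity)
      rw [hK]
      linarith
    · rw [integral_const_mul]
      exact mul_le_mul_of_nonneg_left habs (by positivity)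
  have h1 := mul_le_mul_of_nonneg_right hsmall (show 0 ≤ (P : ℝ) ^ (s - k) by positivity)
  linarith [hoff hconv]

/-- **The major part is large.** -/
theorem exists_major_ge (hk : 1 ≤ k) (hs : 2 * k + 1 ≤ s) {l : Fin s → ℝ} (hl : ∀ i, l i ≠ 0)
    {a b : Fin s} (ha : 0 < l a) (hb : l b < 0) {D : ℕ} {r : ℝ} (hoff : OffZero k D r l) :
    ∃ g : ℝ, 0 < g ∧ ∀ᶠ P : ℕ in atTop, convergentDen r P →
      g * (P : ℝ) ^ (s - k) ≤ (majorPart k D P l).re := by
  obtain ⟨g₀, κ, hg₀, hκ, hcount⟩ := exists_small_values hk ha hb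
  obtain ⟨E, hE, hprod⟩ := exists_product_bound hk hs hl D
  obtain ⟨g, hg⟩ : ∃ g, g = g₀ * Real.exp (-π) := ⟨_, rfl⟩
  have hg0 : 0 < g := hg ▸ by positivity
  obtain ⟨A, hA⟩ : ∃ A, A = (8 * E * π / g) ^ k := ⟨_, rfl⟩
  have hA0 : 0 < A := hA ▸ by positivity
  have hAk : A ^ (-(1 / (k : ℝ))) * (8 * E * π / g) = 1 := by
    rw [hA, ← Real.rpow_natCast, ← Real.rpow_mul (by positivity), mul_neg,
      mul_one_div_cancel (Nat.cast_ne_zero.2 (by omega)), Real.rpow_neg_one,
      inv_mul_cancel₀ (by positivity)]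
  obtain ⟨h, hh0, hhκ, hhA⟩ : ∃ h : ℝ, 0 < h ∧ h ≤ κ ∧ π * h ^ 2 * A ^ 2 * E * π ≤ g / 8 := by
    have hlim : Tendsto (fun h : ℝ => π * h ^ 2 * A ^ 2 * E * π) (𝓝[>] 0) (𝓝 0) :=
      tendsto_nhdsWithin_of_tendsto_nhds (Continuous.tendsto' (by fun_prop) 0 0 (by simp))
    obtain ⟨h, ⟨h1, h2⟩, h3⟩ := ((eventually_nhdsWithin_of_forall
      fun h (hh : h ∈ Set.Ioi (0 : ℝ)) => hh).and
        (eventually_nhdsWithin_of_eventually_nhds (eventually_le_nhds hκ))).and
      (hlim.eventually (eventually_le_nhds (show 0 < g / 8 by positivity))) |>.exists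
    exact ⟨h, h1, h2, h3⟩
  refine ⟨g / 2, by positivity, ?_⟩
  filter_upwards [hcount h hh0 hhκ, hprod, hoff 1 (g / 8) one_pos (by positivity),
    tendsto_logOne.eventually (eventually_ge_atTop (16 * E / g)),
    (tendsto_natCast_atTop_atTop (R := ℝ)).eventually (eventually_ge_atTop (max 1 (1 / h))),
    eventually_ge_atTop 1] with P hPc hPd hoffP hLbig hPh hP1 hconv
  rw [max_le_iff] at hPh
  have hP0 : (0 : ℝ) < P := Nat.cast_pos.2 hP1
  obtain ⟨N, hN⟩ : ∃ N : ℝ, N = (P : ℝ) ^ k := ⟨_, rfl⟩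
  have hN0 : 0 < N := hN ▸ pow_pos hP0 k
  have hη : 1 ≤ h * N := by
    have h1 := le_self_pow₀ hPh.1 (show k ≠ 0 by omega)
    have h2 := (div_le_iff₀ hh0).1 hPh.2
    have h3 := mul_le_mul_of_nonneg_left (hN ▸ h1) hh0.le
    linarith
  have hNs : (P : ℝ) ^ (s - k) * N = (P : ℝ) ^ s := by
    rw [hN, ← pow_add, Nat.sub_add_cancel (by omega)]
  have hlow : g * (P : ℝ) ^ (s - k) ≤ weightedBox k P l (h * N) 0 / (h * N) := by
    rw [le_div_iff₀ (by linarith), weightedBox]
    simp only [sub_zero]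
    refine le_trans ?_ (sum_le_sum_of_subset_of_nonneg (filter_subset
      (fun x => |diagForm k l x| ≤ h * (P : ℝ) ^ k) (primeBox s P)) fun i _ _ =>
        mul_nonneg (tupleWeight_nonneg i) (gaussW_pos _ _).le)
    refine le_trans ?_ (sum_le_sum (f := fun x => tupleWeight x * Real.exp (-π)) fun x hx => ?_)
    · rw [← sum_mul, hg]
      refine le_trans (le_of_eq ?_) (mul_le_mul_of_nonneg_right hPc (Real.exp_pos _).le)
      rw [← hNs]
      ring
    · refine mul_le_mul_of_nonneg_left ?_ (tupleWeight_nonneg x)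
      rw [gaussW, Real.exp_le_exp, mul_div_assoc, neg_mul]
      refine neg_le_neg (mul_le_of_le_one_right Real.pi_pos.le ?_)
      rw [div_le_one (by positivity)]
      exact sq_le_sq.2 (by rw [abs_of_pos (show 0 < h * N by positivity), hN]
                           exact (mem_filter.1 hx).2)
  obtain ⟨u, hu⟩ : ∃ u, u = π * h ^ 2 * A ^ 2 * E + E * A ^ (-(1 / (k : ℝ))) := ⟨_, rfl⟩
  have hu0 : 0 ≤ u := hu ▸ by positivity
  have hmaj := integral_major_le (k := k) (s := s) (D := D) (by omega) hP1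
    (continuous_kernel_diff k P l (h * N) 0) (u := u)
    (v := E * (1 / logOne P ^ (D + 1))) hu0 fun α hα => by
    rw [zero_mul, neg_zero, eAdd_zero, mul_one, ← Complex.ofReal_one, ← Complex.ofReal_sub,
      Complex.norm_real, Real.norm_eq_abs, abs_sub_comm,
      abs_of_nonneg (sub_nonneg.2 (gaussK_le_one _ α))]
    have h0 : 0 ≤ 1 - gaussK (h * N) α := sub_nonneg.2 (gaussK_le_one _ α)
    refine (mul_le_mul_of_nonneg_left (hPd α hα) h0).trans ?_
    have h1 : 1 - gaussK (h * N) α ≤ 1 := sub_le_self _ (gaussK_pos _ _).le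
    obtain ⟨y, hy⟩ : ∃ y, y = N * |α| := ⟨_, rfl⟩
    have hy0 : 0 ≤ y := hy ▸ by positivity
    obtain ⟨V, hV⟩ : ∃ V, V = 1 / logOne P ^ (D + 1) := ⟨_, rfl⟩
    have hV0 : 0 ≤ V :=
      hV ▸ div_nonneg zero_le_one (pow_nonneg (zero_le_one.trans (one_le_logOne P)) _)
    rw [← hV, ← hN, ← hy, show (N * α) ^ 2 = y ^ 2 by rw [hy, mul_pow, mul_pow, sq_abs]]
    obtain ⟨Z, hZ⟩ : ∃ Z, Z = (1 + y ^ 2)⁻¹ := ⟨_, rfl⟩
    have hZ0 : 0 ≤ Z := hZ ▸ by positivity
    have hd0 := decay_nonneg k hy0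
    have hd1 : decay k y ≤ 1 := Real.rpow_le_one_of_one_le_of_nonpos
      (le_add_of_nonneg_right hy0) (neg_nonpos.2 (by positivity))
    rw [← hZ]
    have hkey : (1 - gaussK (h * N) α) * decay k y * E ≤ u := by
      rw [hu]
      rcases le_or_gt y A with hyA | hyA
      · have h2 : 1 - gaussK (h * N) α ≤ π * h ^ 2 * A ^ 2 := by
          have h3 := Real.add_one_le_exp (-(π * (h * N) ^ 2) * α ^ 2)
          have h4 := mul_le_mul_of_nonneg_left (pow_le_pow_left₀ hy0 hyA 2)
            (show 0 ≤ π * h ^ 2 by positivity)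
          rw [hy, mul_pow, sq_abs] at h4
          rw [gaussK]
          linarith
        refine (mul_le_mul_of_nonneg_right (mul_le_mul h2 hd1 hd0 (by positivity)) hE.le).trans ?_
        rw [mul_one]
        exact le_add_of_nonneg_right (by positivity)
      · have h2 : decay k y ≤ A ^ (-(1 / (k : ℝ))) := Real.rpow_le_rpow_of_nonpos hA0
          (by linarith) (neg_nonpos.2 (by positivity))
        refine (mul_le_mul_of_nonneg_right (mul_le_mul h1 h2 hd0 zero_le_one) hE.le).trans ?_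
        rw [one_mul, mul_comm]
        exact le_add_of_nonneg_left (by positivity)
    have h5 : (1 - gaussK (h * N) α) * (E * V) ≤ E * V :=
      mul_le_of_le_one_left (by positivity) h1
    calc (1 - gaussK (h * N) α) * (E * (P : ℝ) ^ s * (decay k y * Z + V))
        = (P : ℝ) ^ s * ((1 - gaussK (h * N) α) * decay k y * E * Z +
            (1 - gaussK (h * N) α) * (E * V)) := by ring
      _ ≤ _ := mul_le_mul_of_nonneg_left
          (add_le_add (mul_le_mul_of_nonneg_right hkey hZ0) h5) (by positivity)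
  have hoff' : ∫ α in (Set.Icc (-majorWidth k D P) (majorWidth k D P))ᶜ,
      gaussK (h * N) α * ‖powProd k P l α‖ ≤ g / 8 * (P : ℝ) ^ (s - k) := by
    refine le_trans (setIntegral_mono ?_ ?_ fun α => ?_) (hoffP hconv)
    · exact (integrable_kernel_mul_real (by linarith) (continuous_powProd k P l).norm
        fun α => by rw [norm_norm]; exact norm_powProd_le k P l α).integrableOn
    · exact (integrable_kernel_mul_real one_pos (continuous_powProd k P l).norm
        fun α => by rw [norm_norm]; exact norm_powProd_le k P l α).integrableOn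
    · refine mul_le_mul_of_nonneg_right (Real.exp_le_exp.2 ?_) (norm_nonneg _)
      have h1 : (1 : ℝ) ^ 2 ≤ (h * N) ^ 2 := pow_le_pow_left₀ zero_le_one hη 2
      have h2 := mul_le_mul_of_nonneg_left h1 (show 0 ≤ π * α ^ 2 by positivity)
      linarith
  have huπ : u * π ≤ g / 4 := by
    rw [hu, add_mul]
    have e : E * A ^ (-(1 / (k : ℝ))) * π = g / 8 := by
      rw [mul_div_assoc', div_eq_iff hg0.ne'] at hAk
      linarith
    linarith
  have hv : 2 * logOne P ^ D * (E * (1 / logOne P ^ (D + 1))) ≤ g / 8 := by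
    rw [show 2 * logOne P ^ D * (E * (1 / logOne P ^ (D + 1))) =
      2 * E * (logOne P ^ D * (1 / logOne P ^ (D + 1))) by ring, logOne_pow_mul_inv,
      mul_one_div, div_le_iff₀ (zero_lt_one.trans_le (one_le_logOne P))]
    rw [div_le_iff₀ hg0] at hLbig
    linarith
  have h1 := (abs_le.1 ((Complex.abs_re_le_norm _).trans
    ((norm_count_sub_major_le k D P l (show 0 < h * N by linarith) 0).trans
      (add_le_add hmaj hoff')))).2
  rw [Complex.sub_re, Complex.ofReal_re] at h1
  have h2 := mul_le_mul_of_nonneg_left (add_le_add huπ hv)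
    (show 0 ≤ (P : ℝ) ^ (s - k) by positivity)
  linarith

/-- The tuples of primes with `|∑ lᵢ pᵢ ^ k - μ| < η`. -/
def near (k : ℕ) (l : Fin s → ℝ) (μ η : ℝ) (P : ℕ) : Finset (Fin s → ℕ) :=
  (primeBox s P).filter fun x => |diagForm k l x - μ| < η

/-- **The count.** -/
theorem exists_frequently (hk : 2 ≤ k) {m : ℕ} (hM : MomentBound k m) (hkm : k ≤ m)
    (hms : m + 1 ≤ s) (hs : 2 * k + 1 ≤ s) {l : Fin s → ℝ} (hl : ∀ i, l i ≠ 0)
    (hirr : ∃ i j, Irrational (l i / l j)) (hsign : ∃ i j, 0 < l i ∧ l j < 0) (μ : ℝ) {η : ℝ}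
    (hη : 0 < η) : ∃ g : ℝ, 0 < g ∧ ∃ᶠ P : ℕ in atTop,
      g * ((P : ℝ) ^ (s - k) / Real.log P ^ s) ≤ #(near k l μ η P) := by
  obtain ⟨a', b', hab⟩ := hirr
  obtain ⟨a, b, ha, hb⟩ := hsign
  obtain ⟨D, hoffD⟩ := exists_off_zero hk hM hkm hms hl a' b'
  obtain ⟨r, hr⟩ : ∃ r, r = l a' / l b' := ⟨_, rfl⟩
  have hoff : OffZero k D r l := hr ▸ hoffD
  obtain ⟨c₀, hc₀, hmaj⟩ := exists_major_ge (by omega) hs hl ha hb hoff
  obtain ⟨C₁, hC₁, habs⟩ := exists_major_abs (show 1 ≤ k by omega) hs hl D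
  obtain ⟨C, hC⟩ : ∃ C, C = C₁ + 1 := ⟨_, rfl⟩
  have hC0 : 0 < C := by linarith
  obtain ⟨w, hw0, hw1, hw⟩ : ∃ w : ℝ, 0 < w ∧ w ^ 2 ≤ 1 / 2 ∧
      Real.exp (-π * (η ^ 2 / (2 * w ^ 2))) * C ≤ c₀ * w / 4 := by
    obtain ⟨w, hw0, hw1, hwc⟩ : ∃ w : ℝ, 0 < w ∧ w ≤ 1 / 2 ∧ w ≤ π * η ^ 2 * c₀ / (8 * C) :=
      ⟨min (1 / 2) (π * η ^ 2 * c₀ / (8 * C)), lt_min (by norm_num) (by positivity),
        min_le_left _ _, min_le_right _ _⟩
    refine ⟨w, hw0, (pow_le_pow_left₀ hw0.le hw1 2).trans (by norm_num), ?_⟩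
    rw [neg_mul, Real.exp_neg, inv_mul_eq_div, div_le_iff₀ (Real.exp_pos _)]
    have h1 := mul_le_mul_of_nonneg_left (Real.add_one_le_exp (π * (η ^ 2 / (2 * w ^ 2))))
      (show 0 ≤ c₀ * w / 4 by positivity)
    have h2 : C ≤ c₀ * w / 4 * (π * (η ^ 2 / (2 * w ^ 2))) := by
      rw [show c₀ * w / 4 * (π * (η ^ 2 / (2 * w ^ 2))) = π * η ^ 2 * c₀ / 8 / w by
        field_simp; ring, le_div_iff₀ hw0]
      rw [le_div_iff₀ (by positivity)] at hwc
      linarith
    have h3 : 0 ≤ c₀ * w / 4 := by positivity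
    linarith
  suffices key : ∀ᶠ P : ℕ in atTop, convergentDen r P →
      c₀ * w / 4 * ((P : ℝ) ^ (s - k) / Real.log P ^ s) ≤ #(near k l μ η P) from
    ⟨c₀ * w / 4, by positivity,
      ((frequently_convergentDen (hr ▸ hab)).and_eventually key).mono fun P hP => hP.2 hP.1⟩
  filter_upwards [hmaj, eventually_count_near (by omega) hs hl hoff hw0 μ
      (show 0 < c₀ / 2 by positivity), habs, hoff 1 1 one_pos one_pos,
    eventually_ge_atTop 2] with P hP hnear habs hoffP hP2 hconv
  have hlog : 0 < Real.log P := Real.log_pos (by exact_mod_cast hP2)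
  obtain ⟨Y, hY⟩ : ∃ Y : ℝ, Y = (P : ℝ) ^ (s - k) := ⟨_, rfl⟩
  rw [← hY] at hP hnear habs hoffP ⊢
  have h1 := (abs_le.1 ((Complex.abs_re_le_norm _).trans (hnear hconv))).1
  rw [Complex.sub_re, Complex.ofReal_re] at h1
  have h2 : c₀ / 2 * Y * w ≤ weightedBox k P l w μ := by
    rw [← le_div_iff₀ hw0]
    linarith [hP hconv]
  have h3 : weightedBox k P l 1 μ ≤ C * Y := by
    have h := weightedBox_div_eq k P l one_pos μ
    rw [div_one] at h
    have hint : Integrable fun α => gaussK 1 α * ‖powProd k P l α‖ :=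
      integrable_kernel_mul_real one_pos (continuous_powProd k P l).norm fun α => by
        rw [norm_norm]; exact norm_powProd_le k P l α
    have h' := congrArg norm h
    rw [Complex.norm_real, Real.norm_eq_abs] at h'
    refine (le_abs_self _).trans (h'.le.trans ((norm_integral_le_integral_norm _).trans
      (le_of_eq_of_le (integral_congr_ae (ae_of_all _ fun α => ?_))
        (le_of_eq_of_le (integral_add_compl (s := Set.Icc (-majorWidth k D P) (majorWidth k D P))
          measurableSet_Icc hint).symm ?_))))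
    · dsimp only
      rw [norm_mul, norm_mul, norm_eAdd, mul_one, Complex.norm_real, Real.norm_eq_abs,
        abs_of_pos (gaussK_pos 1 α)]
    · have h4 : ∫ α in Set.Icc (-majorWidth k D P) (majorWidth k D P),
          gaussK 1 α * ‖powProd k P l α‖ ≤ C₁ * Y :=
        (setIntegral_mono_on hint.integrableOn
          (continuous_powProd k P l).norm.integrableOn_Icc measurableSet_Icc
          fun α _ => mul_le_of_le_one_left (norm_nonneg _) (gaussK_le_one 1 α)).trans habs
      rw [hC]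
      linarith [hoffP hconv]
  rw [weightedBox, ← sum_filter_add_sum_filter_not (primeBox s P)
    (fun x => |diagForm k l x - μ| < η)] at h2
  have h4 : ∑ x ∈ (primeBox s P).filter (fun x => |diagForm k l x - μ| < η),
      tupleWeight x * gaussW w (diagForm k l x - μ) ≤ #(near k l μ η P) * Real.log P ^ s := by
    refine (sum_le_sum fun x _ => mul_le_of_le_one_right (tupleWeight_nonneg x)
      (Real.exp_le_one_iff.2 (div_nonpos_of_nonpos_of_nonneg (mul_nonpos_of_nonpos_of_nonneg
        (neg_nonpos.2 Real.pi_pos.le) (sq_nonneg _)) (sq_nonneg _)))).trans ?_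
    rw [near, ← nsmul_eq_mul]
    refine sum_le_card_nsmul _ _ _ fun x hx => ?_
    have hx' := (mem_filter.1 hx).1
    rw [primeBox, Fintype.mem_piFinset] at hx'
    refine (prod_le_prod (g := fun _ : Fin s => Real.log P)
      (fun i _ => Real.log_natCast_nonneg _) fun i _ => ?_).trans (le_of_eq (by simp))
    have h := hx' i
    simp only [Equidist.primeSet, mem_filter, mem_range] at h
    exact Real.log_le_log (Nat.cast_pos.2 h.2.pos) (Nat.cast_le.2 (Nat.lt_succ_iff.1 h.1))
  have h5 : ∑ x ∈ (primeBox s P).filter (fun x => ¬|diagForm k l x - μ| < η),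
      tupleWeight x * gaussW w (diagForm k l x - μ) ≤
        Real.exp (-π * (η ^ 2 / (2 * w ^ 2))) * weightedBox k P l 1 μ := by
    rw [weightedBox, mul_sum]
    refine (sum_le_sum (g := fun x => Real.exp (-π * (η ^ 2 / (2 * w ^ 2))) *
      (tupleWeight x * gaussW 1 (diagForm k l x - μ))) fun x hx => ?_).trans
        (sum_le_sum_of_subset_of_nonneg (filter_subset _ _) fun x _ _ =>
          mul_nonneg (Real.exp_pos _).le (mul_nonneg (tupleWeight_nonneg x) (gaussW_pos _ _).le))
    rw [mul_left_comm]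
    refine mul_le_mul_of_nonneg_left ?_ (tupleWeight_nonneg x)
    obtain ⟨u, hu⟩ : ∃ u, u = diagForm k l x - μ := ⟨_, rfl⟩
    have hx' := (mem_filter.1 hx).2
    rw [← hu, not_lt] at hx'
    rw [← hu, gaussW, gaussW, ← Real.exp_add, Real.exp_le_exp, one_pow, div_one]
    have hη2 : η ^ 2 ≤ u ^ 2 := sq_le_sq.2 (by rwa [abs_of_pos hη])
    have hA : η ^ 2 / (2 * w ^ 2) ≤ u ^ 2 / (2 * w ^ 2) :=
      div_le_div_of_nonneg_right hη2 (by positivity)
    have hB : u ^ 2 ≤ u ^ 2 / (2 * w ^ 2) := by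
      rw [le_div_iff₀ (by positivity)]
      exact mul_le_of_le_one_right (sq_nonneg u) (by linarith)
    have e : -π * u ^ 2 / w ^ 2 = -π * (u ^ 2 / (2 * w ^ 2)) + -π * (u ^ 2 / (2 * w ^ 2)) := by
      field_simp
      ring
    rw [e]
    have := mul_le_mul_of_nonneg_left hA Real.pi_pos.le
    have := mul_le_mul_of_nonneg_left hB Real.pi_pos.le
    linarith
  have h6 := mul_le_mul_of_nonneg_left h3 (Real.exp_pos (-π * (η ^ 2 / (2 * w ^ 2)))).le
  have h7 := mul_le_mul_of_nonneg_right hw (show 0 ≤ Y by rw [hY]; positivity)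
  rw [mul_div_assoc', div_le_iff₀ (by positivity)]
  linarith

end FA.PrimePowerInequality

end
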