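import Fermat.Agent.DiophantineInequality.Main
import Fermat.Agent.LinearFormsPrimes.Sum

/-!
# Tuples of powers of primes with a Gaussian weight

`∑ ∏ log pᵢ exp (- π (∑ lᵢ pᵢ ^ k - μ)² / η²)` is `η` times the integral of
`exp (- π η² α²) ∏ S (lᵢ α) e (- μ α)`, `S θ = ∑_{p ≤ P} log p e (θ p ^ k)`; and the `2 t`-th
moment of `S` for that kernel is at most `(log P) ^ (2 t)` times the number of solutions of
`x₁ ^ k + … + x_t ^ k = y₁ ^ k + … + y_t ^ k` up to `P`.
-/

set_option autoImplicit false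

noncomputable section

namespace FA.PrimePowerInequality

open Finset MeasureTheory ComplexConjugate
open FA.ThreePrimes (eAdd norm_eAdd eAdd_add conj_eAdd logOne one_le_logOne)
open FA.DiophantineInequality (gaussW gaussK gaussW_pos gaussK_pos continuous_eAdd diagForm eAdd_sum
  integrable_kernel_eAdd integrable_kernel_mul_real integral_gaussK_mul_eAdd
  exists_sum_gaussW_int_le card_shift_le)
open FA.Equidist (primeSet)
open FA.WaringAsymptotic (powerDiagonal)
open scoped Real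

variable {s : ℕ}

/-- `∑_{p ≤ P} log p e (θ p ^ k)`. -/
def powSum (k P : ℕ) (θ : ℝ) : ℂ :=
  ∑ p ∈ primeSet P, (Real.log p : ℂ) * eAdd (θ * (p : ℝ) ^ k)

/-- The tuples of primes up to `P`. -/
def primeBox (s P : ℕ) : Finset (Fin s → ℕ) := Fintype.piFinset fun _ : Fin s => primeSet P

/-- `∏ log xᵢ`. -/
def tupleWeight (x : Fin s → ℕ) : ℝ := ∏ i, Real.log (x i)

theorem tupleWeight_nonneg (x : Fin s → ℕ) : 0 ≤ tupleWeight x :=
  prod_nonneg fun _ _ => Real.log_natCast_nonneg _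

theorem log_le_logOne {p P : ℕ} (hp : p ∈ primeSet P) : Real.log p ≤ logOne P := by
  simp only [Equidist.primeSet, mem_filter, mem_range] at hp
  have := Real.log_le_log (Nat.cast_pos.2 hp.2.pos)
    (Nat.cast_le (α := ℝ).2 (Nat.lt_succ_iff.1 hp.1))
  unfold ThreePrimes.logOne
  linarith

theorem tupleWeight_le {P : ℕ} {x : Fin s → ℕ} (hx : x ∈ primeBox s P) :
    tupleWeight x ≤ logOne P ^ s := by
  rw [primeBox, Fintype.mem_piFinset] at hx
  refine (prod_le_prod (fun i _ => Real.log_natCast_nonneg _)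
    fun i _ => log_le_logOne (hx i)).trans (le_of_eq ?_)
  simp

/-- `∏ S (lᵢ α)`. -/
def powProd (k P : ℕ) (l : Fin s → ℝ) (α : ℝ) : ℂ := ∏ i, powSum k P (l i * α)

theorem norm_powSum_le (k P : ℕ) (θ : ℝ) : ‖powSum k P θ‖ ≤ 2 * (P : ℝ) := by
  refine ((norm_sum_le _ _).trans (le_of_eq (sum_congr rfl fun p _ => ?_))).trans
    (LinearFormsPrimes.sum_log_le P)
  rw [norm_mul, norm_eAdd, mul_one, Complex.norm_real,
    Real.norm_of_nonneg (Real.log_natCast_nonneg p)]

theorem continuous_powSum (k P : ℕ) : Continuous (powSum k P) := by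
  unfold powSum
  exact continuous_finsetSum _ fun p _ =>
    continuous_const.mul (continuous_eAdd.comp (continuous_id.mul continuous_const))

theorem continuous_powSum_mul (k P : ℕ) (c : ℝ) : Continuous fun α => powSum k P (c * α) :=
  (continuous_powSum k P).comp (continuous_const.mul continuous_id)

theorem continuous_powProd (k P : ℕ) (l : Fin s → ℝ) : Continuous (powProd k P l) := by
  unfold powProd
  exact continuous_finsetProd _ fun i _ => continuous_powSum_mul k P (l i)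

theorem norm_powProd_le (k P : ℕ) (l : Fin s → ℝ) (α : ℝ) :
    ‖powProd k P l α‖ ≤ (2 * (P : ℝ)) ^ s := by
  rw [powProd, norm_prod]
  refine (prod_le_prod (fun i _ => norm_nonneg _) fun i _ => norm_powSum_le k P _).trans ?_
  simp

theorem powProd_eq (k P : ℕ) (l : Fin s → ℝ) (α : ℝ) :
    powProd k P l α =
      ∑ x ∈ primeBox s P, (tupleWeight x : ℂ) * eAdd (diagForm k l x * α) := by
  rw [powProd, primeBox]
  simp only [powSum]
  rw [prod_univ_sum]
  refine sum_congr rfl fun x _ => ?_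
  rw [prod_mul_distrib, tupleWeight, diagForm, sum_mul, eAdd_sum, Complex.ofReal_prod]
  exact congrArg _ (prod_congr rfl fun i _ => by ring_nf)

/-- The weighted count. -/
def weightedBox (k P : ℕ) (l : Fin s → ℝ) (η μ : ℝ) : ℝ :=
  ∑ x ∈ primeBox s P, tupleWeight x * gaussW η (diagForm k l x - μ)

/-- **The count as an integral.** -/
theorem weightedBox_div_eq (k P : ℕ) (l : Fin s → ℝ) {η : ℝ} (hη : 0 < η) (μ : ℝ) :
    ((weightedBox k P l η μ / η : ℝ) : ℂ) =
      ∫ α : ℝ, (gaussK η α : ℂ) * (powProd k P l α * eAdd (-(μ * α))) := by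
  have e : ∀ α : ℝ, (gaussK η α : ℂ) * (powProd k P l α * eAdd (-(μ * α))) =
      ∑ x ∈ primeBox s P,
        (tupleWeight x : ℂ) * ((gaussK η α : ℂ) * eAdd ((diagForm k l x - μ) * α)) := fun α => by
    rw [powProd_eq, sum_mul, mul_sum]
    refine sum_congr rfl fun x _ => ?_
    rw [mul_assoc, ← eAdd_add]
    ring_nf
  rw [integral_congr_ae (ae_of_all _ e), integral_finsetSum _ fun x _ =>
    (integrable_kernel_eAdd hη _).const_mul _]
  simp only [integral_const_mul, integral_gaussK_mul_eAdd hη]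
  rw [weightedBox, sum_div, Complex.ofReal_sum]
  refine sum_congr rfl fun x _ => ?_
  rw [← Complex.ofReal_mul]
  congr 1
  ring

/-- The `m`-th moment has the expected order up to a power of `log P`. -/
def MomentBound (k m : ℕ) : Prop :=
  ∃ e : ℕ, ∀ η c : ℝ, 0 < η → c ≠ 0 → ∃ C : ℝ, 0 < C ∧ ∀ P : ℕ, 1 ≤ P →
    ∫ α : ℝ, gaussK η α * ‖powSum k P (c * α)‖ ^ m ≤ C * ((P : ℝ) ^ (m - k) * logOne P ^ e)

/-- **The moment from the diagonal.** -/
theorem momentBound_of_diagonal {k t f : ℕ} {C₀ : ℝ} (hC₀ : 0 < C₀)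
    (hdiag : ∀ P : ℕ, 1 ≤ P →
      (powerDiagonal k t P : ℝ) ≤ C₀ * ((P : ℝ) ^ (2 * t - k) * logOne P ^ f)) :
    MomentBound k (2 * t) := by
  refine ⟨f + 2 * t, fun η c hη hc => ?_⟩
  obtain ⟨G, hG, hGS⟩ := exists_sum_gaussW_int_le hη hc
  refine ⟨G * C₀ / η, by positivity, fun P hP => ?_⟩
  obtain ⟨A, hA⟩ : ∃ A, A = primeBox t P := ⟨_, rfl⟩
  obtain ⟨F, hF⟩ : ∃ F : (Fin t → ℕ) → ℤ, F = fun z => ((∑ i, z i ^ k : ℕ) : ℤ) := ⟨_, rfl⟩
  have hw : ∀ α : ℝ, powSum k P (c * α) ^ t =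
      ∑ z ∈ A, (tupleWeight z : ℂ) * eAdd (((F z : ℤ) : ℝ) * (c * α)) := fun α => by
    have h := WaringAsymptotic.sum_eAdd_pow (primeSet P) (fun n : ℕ => (Real.log n : ℂ))
      (fun n => n ^ k) t (c * α)
    rw [hA, hF, primeBox]
    simp only [Int.cast_natCast, tupleWeight, Complex.ofReal_prod]
    rw [← h, powSum]
    refine congrArg (· ^ t) (sum_congr rfl fun n _ => ?_)
    push_cast
    ring_nf
  have e : ∀ α : ℝ, (((gaussK η α * ‖powSum k P (c * α)‖ ^ (2 * t) : ℝ)) : ℂ) =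
      ∑ z ∈ A ×ˢ A, ((tupleWeight z.1 * tupleWeight z.2 : ℝ) : ℂ) *
        ((gaussK η α : ℂ) * eAdd (c * ((F z.1 - F z.2 : ℤ) : ℝ) * α)) := fun α => by
    rw [Complex.ofReal_mul, Complex.ofReal_pow, pow_mul, ← Complex.mul_conj', mul_pow,
      ← map_pow, hw, map_sum, sum_mul_sum, sum_product, mul_sum]
    refine sum_congr rfl fun z _ => ?_
    rw [mul_sum]
    refine sum_congr rfl fun w _ => ?_
    rw [map_mul, Complex.conj_ofReal, conj_eAdd,
      show c * ((F z - F w : ℤ) : ℝ) * α = (F z : ℝ) * (c * α) + -((F w : ℝ) * (c * α)) by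
        push_cast; ring, eAdd_add, Complex.ofReal_mul]
    ring
  have key : ∫ α : ℝ, gaussK η α * ‖powSum k P (c * α)‖ ^ (2 * t) =
      (∑ z ∈ A ×ˢ A, tupleWeight z.1 * tupleWeight z.2 *
        gaussW η (c * ((F z.1 - F z.2 : ℤ) : ℝ))) / η := by
    apply Complex.ofReal_injective
    rw [← integral_complex_ofReal, integral_congr_ae (ae_of_all _ e),
      integral_finsetSum _ fun x _ => (integrable_kernel_eAdd hη _).const_mul _]
    simp only [integral_const_mul, integral_gaussK_mul_eAdd hη]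
    rw [sum_div, Complex.ofReal_sum]
    refine sum_congr rfl fun z _ => ?_
    rw [← Complex.ofReal_mul]
    congr 1
    ring
  rw [key, div_mul_eq_mul_div]
  refine div_le_div_of_nonneg_right ?_ hη.le
  have hL : 0 ≤ logOne P := zero_le_one.trans (one_le_logOne P)
  obtain ⟨U, hU⟩ : ∃ U, U = Korobov.box (Icc 1 P) t := ⟨_, rfl⟩
  have hAU : A ⊆ U := by
    rw [hA, hU, primeBox, Korobov.box]
    refine Fintype.piFinset_subset _ _ fun i p hp => ?_
    simp only [Equidist.primeSet, mem_filter, mem_range] at hp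
    exact mem_Icc.2 ⟨hp.2.one_le, Nat.lt_succ_iff.1 hp.1⟩
  refine ((sum_le_sum (g := fun z : (Fin t → ℕ) × (Fin t → ℕ) => logOne P ^ (2 * t) *
    gaussW η (c * ((F z.1 - F z.2 : ℤ) : ℝ))) fun z hz => ?_).trans
      (sum_le_sum_of_subset_of_nonneg (product_subset_product hAU hAU) fun z _ _ =>
        mul_nonneg (pow_nonneg hL _) (gaussW_pos _ _).le)).trans ?_
  · rw [mem_product, hA] at hz
    refine mul_le_mul_of_nonneg_right ?_ (gaussW_pos _ _).le
    rw [two_mul, pow_add]
    exact mul_le_mul (tupleWeight_le hz.1) (tupleWeight_le hz.2) (tupleWeight_nonneg _)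
      (pow_nonneg hL _)
  rw [← mul_sum]
  have hsum : ∑ z ∈ U ×ˢ U, gaussW η (c * ((F z.1 - F z.2 : ℤ) : ℝ)) ≤
      G * (powerDiagonal k t P : ℝ) := by
    rw [← sum_fiberwise_of_maps_to (g := fun z => F z.1 - F z.2)
      (t := (U ×ˢ U).image fun z => F z.1 - F z.2) fun z hz => mem_image_of_mem _ hz]
    refine (sum_le_sum (g := fun n : ℤ => (powerDiagonal k t P : ℝ) * gaussW η (c * n))
      fun n _ => ?_).trans ?_
    · rw [sum_congr rfl fun z hz => by rw [(mem_filter.1 hz).2], sum_const, nsmul_eq_mul]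
      refine mul_le_mul_of_nonneg_right (Nat.cast_le.2 ?_) (gaussW_pos _ _).le
      refine (card_shift_le U F n).trans (le_of_eq ?_)
      rw [WaringAsymptotic.powerDiagonal, hU, hF]
      simp only [Nat.cast_inj]
    · rw [← mul_sum, mul_comm]
      exact mul_le_mul_of_nonneg_right (hGS _) (Nat.cast_nonneg _)
  refine (mul_le_mul_of_nonneg_left (hsum.trans (mul_le_mul_of_nonneg_left (hdiag P hP) hG.le))
    (pow_nonneg hL _)).trans (le_of_eq ?_)
  rw [pow_add]
  ring

end FA.PrimePowerInequality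

end
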